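/-
DELTA / CORE (helper7), hand-off (HO-1) **LEVEL**: the change of inertia level `H ≤ H₁ ≤ 𝔓.I`
on the function fields `F_{H₁} = tbLevF 𝔓 N H₁ → F_H = tbLevF 𝔓 N H`.

* `dlqlF 𝔓 hle N : F_{H₁} →+* F_H` (coefficientwise inclusion `t4cyInc 𝔓 hle : L_{H₁} → L_H`);
* `dlqlF_algebraMap`, `tbPhiF_dlqlF` (same `q`-expansion over `ℚ̄`), `dlqlF_injective`;
* `dlqlF_gauss`, `dlqlF_rho` : Gauss functions stay Gauss, with the same residue;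
* `dlqlF_w` (Atkin–Lehner), `dlqlF_J`, `dlqlF_X` (the symmetric chart `t2gaX`), `dlqlF_D` (the vertical
  unit `dlxVertD`), `dlqlF_int` (integrality over the chart ring);
* in `DlPlace` language: `dlqlF_mem_inf`, `dlqlF_res_inf`, `dlqlF_mem_zero`, `dlqlF_res_zero` for the two
  Gauss places `dliInfH`, `dliZeroH`.
-/
import Fermat.Agent.Lib.Delta.NodeX.Vert
import Fermat.Agent.Lib.Delta.Toric.InstH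
import Fermat.Agent.Lib.T4.Inst.CycLevel

set_option autoImplicit false
set_option linter.unusedSectionVars false
set_option linter.unusedVariables false
set_option linter.style.haveILetI false
set_option synthInstance.maxHeartbeats 400000

open HahnSeries ModularCurve Fermat.Agent.Igusa Fermat.Agent.T1 Fermat.Agent.T2
  Fermat.Agent.T4 Fermat.Agent.TW Fermat.Agent.S05Lib

noncomputable section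

namespace Fermat.Agent.Delta

local notation "Qb" => AlgebraicClosure ℚ

attribute [local instance] t2i_dvr t2i_isAlgClosed t2i_charP t2i_fact

variable (𝔓 : FFPlace) {H₁ H : Subgroup 𝔓.I} (hle : H ≤ H₁)

/-! ### The map -/

section Map

variable (N : ℕ) [NeZero N]

theorem dlql_isScalarTower :
    letI := t4cyAlgebra 𝔓 hle
    IsScalarTower ℚ ↥(tbFix 𝔓 H₁) ↥(tbFix 𝔓 H) := by
  letI := t4cyAlgebra 𝔓 hle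
  exact IsScalarTower.of_algebraMap_eq fun x => ((t4cyInc 𝔓 hle).commutes x).symm

theorem dlql_coeffMap_mem {f : LaurentSeries ↥(tbFix 𝔓 H₁)} (hf : f ∈ tbLevF 𝔓 N H₁) :
    coeffMap ((t4cyInc 𝔓 hle : ↥(tbFix 𝔓 H₁) →ₐ[ℚ] ↥(tbFix 𝔓 H)) :
      ↥(tbFix 𝔓 H₁) →+* ↥(tbFix 𝔓 H)) f ∈ tbLevF 𝔓 N H := by
  letI := t4cyAlgebra 𝔓 hle
  haveI := dlql_isScalarTower 𝔓 hle
  exact tbd_coeffMap_mem (L := ↥(tbFix 𝔓 H₁)) (M := ↥(tbFix 𝔓 H)) (modularFunctionFieldFull N) hf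

/-- **the change of level** `F_{H₁} → F_H` for `H ≤ H₁` -/
def dlqlF : ↥(tbLevF 𝔓 N H₁) →+* ↥(tbLevF 𝔓 N H) :=
  ((coeffMap ((t4cyInc 𝔓 hle : ↥(tbFix 𝔓 H₁) →ₐ[ℚ] ↥(tbFix 𝔓 H)) :
      ↥(tbFix 𝔓 H₁) →+* ↥(tbFix 𝔓 H))).comp (tbLevF 𝔓 N H₁).val.toRingHom).codRestrict
    (tbLevF 𝔓 N H).toSubring (fun f => dlql_coeffMap_mem 𝔓 hle N f.2)

theorem coe_dlqlF (f : ↥(tbLevF 𝔓 N H₁)) :
    ((dlqlF 𝔓 hle N f : ↥(tbLevF 𝔓 N H)) : LaurentSeries ↥(tbFix 𝔓 H)) =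
      coeffMap ((t4cyInc 𝔓 hle : ↥(tbFix 𝔓 H₁) →ₐ[ℚ] ↥(tbFix 𝔓 H)) :
        ↥(tbFix 𝔓 H₁) →+* ↥(tbFix 𝔓 H)) (f : LaurentSeries ↥(tbFix 𝔓 H₁)) := rfl

theorem dlqlF_algebraMap (a : ↥(tbFix 𝔓 H₁)) :
    dlqlF 𝔓 hle N (algebraMap ↥(tbFix 𝔓 H₁) ↥(tbLevF 𝔓 N H₁) a) =
      algebraMap ↥(tbFix 𝔓 H) ↥(tbLevF 𝔓 N H) (t4cyInc 𝔓 hle a) := by
  apply Subtype.ext
  rw [coe_dlqlF]
  show coeffMap _ (algebraMap ↥(tbFix 𝔓 H₁) (LaurentSeries ↥(tbFix 𝔓 H₁)) a) =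
    algebraMap ↥(tbFix 𝔓 H) (LaurentSeries ↥(tbFix 𝔓 H)) (t4cyInc 𝔓 hle a)
  rw [algebraMap_laurentSeries_eq_single, algebraMap_laurentSeries_eq_single, coeffMap_single]
  rfl

/-- **same `q`-expansion over `ℚ̄`** -/
theorem tbPhiF_dlqlF (f : ↥(tbLevF 𝔓 N H₁)) :
    tbPhiF 𝔓 N H (dlqlF 𝔓 hle N f) = tbPhiF 𝔓 N H₁ f := by
  apply Subtype.ext
  rw [coe_tbPhiF, coe_tbPhiF, coe_dlqlF, tbPhi, tbPhi, coeffMap_coeffMap]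
  exact coeffMap_congr (RingHom.ext fun a => rfl) _

theorem dlqlF_injective : Function.Injective (dlqlF 𝔓 hle N) :=
  (dlqlF 𝔓 hle N).injective

theorem dlqlF_eq_iff (f : ↥(tbLevF 𝔓 N H₁)) (g : ↥(tbLevF 𝔓 N H)) :
    dlqlF 𝔓 hle N f = g ↔ tbPhiF 𝔓 N H g = tbPhiF 𝔓 N H₁ f := by
  constructor
  · rintro rfl
    exact tbPhiF_dlqlF 𝔓 hle N f
  · intro h
    apply tbPhiF_injective 𝔓 N H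
    rw [tbPhiF_dlqlF, h]

theorem dlqlF_ne_zero {f : ↥(tbLevF 𝔓 N H₁)} (hf : f ≠ 0) : dlqlF 𝔓 hle N f ≠ 0 :=
  (map_ne_zero_iff _ (dlqlF_injective 𝔓 hle N)).mpr hf

/-- Gauss functions stay Gauss -/
theorem dlqlF_gauss {f : ↥(tbLevF 𝔓 N H₁)}
    (hf : TbGauss (tbFixO 𝔓 H₁) (tbFixRes 𝔓 H₁) (f : LaurentSeries ↥(tbFix 𝔓 H₁))) :
    TbGauss (tbFixO 𝔓 H) (tbFixRes 𝔓 H)
      ((dlqlF 𝔓 hle N f : ↥(tbLevF 𝔓 N H)) : LaurentSeries ↥(tbFix 𝔓 H)) :=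
  TbGauss.map (tbFixO 𝔓 H₁) (tbFixRes 𝔓 H₁) (tbFixO 𝔓 H) (tbFixRes 𝔓 H)
    ((t4cyInc 𝔓 hle : ↥(tbFix 𝔓 H₁) →ₐ[ℚ] ↥(tbFix 𝔓 H)) : ↥(tbFix 𝔓 H₁) →+* ↥(tbFix 𝔓 H))
    (t4cyIncO 𝔓 hle) (fun a => rfl) (fun a => rfl) hf

/-- … with the same residue -/
theorem dlqlF_rho {f : ↥(tbLevF 𝔓 N H₁)}
    (hf : TbGauss (tbFixO 𝔓 H₁) (tbFixRes 𝔓 H₁) (f : LaurentSeries ↥(tbFix 𝔓 H₁))) :
    tbRhoFun (tbFixO 𝔓 H) (tbFixRes 𝔓 H)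
      ((dlqlF 𝔓 hle N f : ↥(tbLevF 𝔓 N H)) : LaurentSeries ↥(tbFix 𝔓 H)) =
      tbRhoFun (tbFixO 𝔓 H₁) (tbFixRes 𝔓 H₁) (f : LaurentSeries ↥(tbFix 𝔓 H₁)) :=
  tbRhoFun_map (tbFixO 𝔓 H₁) (tbFixRes 𝔓 H₁) (tbFixO 𝔓 H) (tbFixRes 𝔓 H)
    ((t4cyInc 𝔓 hle : ↥(tbFix 𝔓 H₁) →ₐ[ℚ] ↥(tbFix 𝔓 H)) : ↥(tbFix 𝔓 H₁) →+* ↥(tbFix 𝔓 H))
    (t4cyIncO 𝔓 hle) (fun a => rfl) (fun a => rfl) hf

/-- `j` -/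
theorem dlqlF_J : dlqlF 𝔓 hle N (tbLevJ 𝔓 N H₁) = tbLevJ 𝔓 N H := by
  apply Subtype.ext
  rw [coe_dlqlF]
  exact coeffMap_jqModC _

/-- integrality over the chart ring -/
theorem dlqlF_int {x f : ↥(tbLevF 𝔓 N H₁)} (hf : f ∈ t2Int (K := ↥(tbFix 𝔓 H₁)) x) :
    dlqlF 𝔓 hle N f ∈ t2Int (K := ↥(tbFix 𝔓 H)) (dlqlF 𝔓 hle N x) := by
  rw [mem_t2Int] at hf ⊢
  have hmem : ∀ y : ↥(Algebra.adjoin ↥(tbFix 𝔓 H₁) {x}),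
      dlqlF 𝔓 hle N (y : ↥(tbLevF 𝔓 N H₁)) ∈
        (Algebra.adjoin ↥(tbFix 𝔓 H) {dlqlF 𝔓 hle N x}).toSubring := by
    rintro ⟨y, hy⟩
    show dlqlF 𝔓 hle N y ∈ Algebra.adjoin ↥(tbFix 𝔓 H) {dlqlF 𝔓 hle N x}
    induction hy using Algebra.adjoin_induction with
    | mem z hz =>
      rw [Set.mem_singleton_iff] at hz
      rw [hz]
      exact Algebra.subset_adjoin (Set.mem_singleton _)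
    | algebraMap a =>
      rw [dlqlF_algebraMap]
      exact Subalgebra.algebraMap_mem _ _
    | add y z _ _ hy hz => rw [map_add]; exact add_mem hy hz
    | mul y z _ _ hy hz => rw [map_mul]; exact mul_mem hy hz
  set φ : ↥(Algebra.adjoin ↥(tbFix 𝔓 H₁) {x}) →+* ↥(Algebra.adjoin ↥(tbFix 𝔓 H) {dlqlF 𝔓 hle N x}) :=
    ((dlqlF 𝔓 hle N).comp (Algebra.adjoin ↥(tbFix 𝔓 H₁) {x}).val.toRingHom).codRestrict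
      (Algebra.adjoin ↥(tbFix 𝔓 H) {dlqlF 𝔓 hle N x}).toSubring hmem with hφ
  exact IsIntegral.map_of_comp_eq φ (dlqlF 𝔓 hle N) (RingHom.ext fun y => rfl) hf

end Map

/-! ### Level `N' p`: Atkin–Lehner, chart, vertical unit -/

section AL

variable (N' : ℕ) [NeZero N'] (h : ¬ 𝔓.p ∣ N')

/-- Atkin–Lehner commutes with the change of level -/
theorem dlqlF_w (f : ↥(tbLevF 𝔓 (N' * 𝔓.p) H₁)) :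
    t2wLev 𝔓 H N' 𝔓.p h (dlqlF 𝔓 hle (N' * 𝔓.p) f) =
      dlqlF 𝔓 hle (N' * 𝔓.p) (t2wLev 𝔓 H₁ N' 𝔓.p h f) := by
  apply tbPhiF_injective 𝔓 (N' * 𝔓.p) H
  rw [tbPhiF_t2wLev, tbPhiF_dlqlF, tbPhiF_dlqlF, tbPhiF_t2wLev]

/-- the symmetric chart -/
theorem dlqlF_X (Q : ℕ) :
    dlqlF 𝔓 hle (N' * 𝔓.p) (t2gaX 𝔓 H₁ N' h Q) = t2gaX 𝔓 H N' h Q := by
  unfold t2gaX
  rw [map_mul, ← dlqlF_w, map_sub, map_pow, dlqlF_J]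

end AL

section Vert

variable [H₁.FiniteIndex] [H.FiniteIndex] (N' : ℕ) [NeZero N'] (h : ¬ 𝔓.p ∣ N')

/-- **the Gauss ring at level `H₁` is the preimage of the Gauss ring at level `H`** -/
theorem dlqlF_gauss_iff (N : ℕ) [NeZero N] (f : ↥(tbLevF 𝔓 N H₁)) :
    TbGauss (tbFixO 𝔓 H) (tbFixRes 𝔓 H)
      ((dlqlF 𝔓 hle N f : ↥(tbLevF 𝔓 N H)) : LaurentSeries ↥(tbFix 𝔓 H)) ↔
      TbGauss (tbFixO 𝔓 H₁) (tbFixRes 𝔓 H₁) (f : LaurentSeries ↥(tbFix 𝔓 H₁)) := by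
  refine ⟨fun hG => ?_, dlqlF_gauss 𝔓 hle N⟩
  by_contra hf
  have hf0 : f ≠ 0 := by
    rintro rfl
    exact hf (tbGaussSubring _ _).zero_mem
  have hinv : TbGauss (tbFixO 𝔓 H₁) (tbFixRes 𝔓 H₁)
      ((f⁻¹ : ↥(tbLevF 𝔓 N H₁)) : LaurentSeries ↥(tbFix 𝔓 H₁)) :=
    ((taOv (tbFixO 𝔓 H₁) (tbFixRes 𝔓 H₁) (tbFixRes_surjective 𝔓 H₁) N).mem_or_inv_mem
      f).resolve_left hf
  have hrho : tbRhoFun (tbFixO 𝔓 H₁) (tbFixRes 𝔓 H₁)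
      ((f⁻¹ : ↥(tbLevF 𝔓 N H₁)) : LaurentSeries ↥(tbFix 𝔓 H₁)) = 0 := by
    by_contra h0
    apply hf
    have := tbGauss_inv (tbFixO 𝔓 H₁) (tbFixRes 𝔓 H₁) hinv h0
    have h1 : (((f⁻¹ : ↥(tbLevF 𝔓 N H₁)) : LaurentSeries ↥(tbFix 𝔓 H₁)))⁻¹ =
        (f : LaurentSeries ↥(tbFix 𝔓 H₁)) := by
      show ((f : LaurentSeries ↥(tbFix 𝔓 H₁))⁻¹)⁻¹ = _
      rw [inv_inv]
    rwa [h1] at this
  have hG' := dlqlF_gauss 𝔓 hle N hinv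
  have hrho' := dlqlF_rho 𝔓 hle N hinv
  rw [hrho] at hrho'
  have hmul : (⟨_, hG⟩ : ↥(tbGaussSubring (tbFixO 𝔓 H) (tbFixRes 𝔓 H))) * ⟨_, hG'⟩ = 1 := by
    apply Subtype.ext
    show ((dlqlF 𝔓 hle N f : ↥(tbLevF 𝔓 N H)) : LaurentSeries ↥(tbFix 𝔓 H)) *
      ((dlqlF 𝔓 hle N f⁻¹ : ↥(tbLevF 𝔓 N H)) : LaurentSeries ↥(tbFix 𝔓 H)) = 1
    rw [← MulMemClass.coe_mul, ← map_mul, mul_inv_cancel₀ hf0, map_one]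
    rfl
  have h2 := congrArg (tbRho (tbFixO 𝔓 H) (tbFixRes 𝔓 H)) hmul
  rw [map_mul, map_one, tbRho_apply, tbRho_apply, hrho', mul_zero] at h2
  exact zero_ne_one h2

/-- the vertical unit -/
theorem dlqlF_D : dlqlF 𝔓 hle (N' * 𝔓.p) (dlxVertD 𝔓 H₁ N') = dlxVertD 𝔓 H N' := by
  rw [dlqlF_eq_iff]
  apply Subtype.ext
  rw [dlxVertD_phi, dlxVertD_phi]

variable {ϖ₁ : ↥(tbFixO 𝔓 H₁)} (hϖ₁ : Irreducible ϖ₁) {ϖ : ↥(tbFixO 𝔓 H)} (hϖ : Irreducible ϖ)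

/-- the Gauss ring of `v_∞` -/
theorem dlqlF_mem_inf {f : ↥(tbLevF 𝔓 (N' * 𝔓.p) H₁)} (hf : f ∈ (dliInfH 𝔓 H₁ hϖ₁ N' h).O) :
    dlqlF 𝔓 hle (N' * 𝔓.p) f ∈ (dliInfH 𝔓 H hϖ N' h).O :=
  dlqlF_gauss 𝔓 hle (N' * 𝔓.p) hf

theorem dlqlF_mem_inf_iff (f : ↥(tbLevF 𝔓 (N' * 𝔓.p) H₁)) :
    dlqlF 𝔓 hle (N' * 𝔓.p) f ∈ (dliInfH 𝔓 H hϖ N' h).O ↔ f ∈ (dliInfH 𝔓 H₁ hϖ₁ N' h).O :=
  dlqlF_gauss_iff 𝔓 hle (N' * 𝔓.p) f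

/-- … with equal residues -/
theorem dlqlF_res_inf {f : ↥(tbLevF 𝔓 (N' * 𝔓.p) H₁)} (hf : f ∈ (dliInfH 𝔓 H₁ hϖ₁ N' h).O) :
    (dliInfH 𝔓 H hϖ N' h).res ⟨dlqlF 𝔓 hle (N' * 𝔓.p) f, dlqlF_mem_inf 𝔓 hle N' h hϖ₁ hϖ hf⟩ =
      (dliInfH 𝔓 H₁ hϖ₁ N' h).res ⟨f, hf⟩ := by
  apply Subtype.ext
  rw [coe_dliInfH_res, coe_dliInfH_res]
  exact dlqlF_rho 𝔓 hle (N' * 𝔓.p) hf

/-- the Gauss ring of `v_0` -/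
theorem dlqlF_mem_zero {f : ↥(tbLevF 𝔓 (N' * 𝔓.p) H₁)} (hf : f ∈ (dliZeroH 𝔓 H₁ hϖ₁ N' h).O) :
    dlqlF 𝔓 hle (N' * 𝔓.p) f ∈ (dliZeroH 𝔓 H hϖ N' h).O := by
  rw [mem_dliZeroH] at hf ⊢
  rw [dlqlF_w]
  exact dlqlF_gauss 𝔓 hle (N' * 𝔓.p) hf

theorem dlqlF_mem_zero_iff (f : ↥(tbLevF 𝔓 (N' * 𝔓.p) H₁)) :
    dlqlF 𝔓 hle (N' * 𝔓.p) f ∈ (dliZeroH 𝔓 H hϖ N' h).O ↔ f ∈ (dliZeroH 𝔓 H₁ hϖ₁ N' h).O := by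
  rw [mem_dliZeroH, mem_dliZeroH, dlqlF_w]
  exact dlqlF_gauss_iff 𝔓 hle (N' * 𝔓.p) _

/-- … with equal residues -/
theorem dlqlF_res_zero {f : ↥(tbLevF 𝔓 (N' * 𝔓.p) H₁)} (hf : f ∈ (dliZeroH 𝔓 H₁ hϖ₁ N' h).O) :
    (dliZeroH 𝔓 H hϖ N' h).res ⟨dlqlF 𝔓 hle (N' * 𝔓.p) f, dlqlF_mem_zero 𝔓 hle N' h hϖ₁ hϖ hf⟩ =
      (dliZeroH 𝔓 H₁ hϖ₁ N' h).res ⟨f, hf⟩ := by
  apply Subtype.ext
  rw [coe_dliZeroH_res, coe_dliZeroH_res, dlqlF_w]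
  exact dlqlF_rho 𝔓 hle (N' * 𝔓.p) ((mem_dliZeroH 𝔓 H₁ hϖ₁ N' h f).mp hf)

end Vert

end Fermat.Agent.Delta
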