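/-
DELTA / CORE, hand-off (HO-2) (helper5): **the dictionary between helper3's slopes `dlsSlope`
(Qbar-level, Gauss reduction on `Z_∞`) and the slopes of the local models of NODE-X at an inertia
level `L_H`**, and the conservation law (CONS) at the free places and at the cusps.

Setting: `H ≤ 𝔓.I` of finite index, `ϖ` a uniformiser of `O_H`, `g₁ = dliInfH 𝔓 H hϖ N' h`,
`g₂ = dliZeroH 𝔓 H hϖ N' h` the two Gauss places of `F_H = tbLevF 𝔓 (N' p) H`, `z ∈ F_H` non-zero,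
`Y ∈ F_{N'p}(Qbar)ˣ` the same function over `Qbar` (`↑Y = tbPhiF 𝔓 (N' p) H z`).

* `dlqd_slope`  : any normalisation `z / ϖ ^ n ∈ g₁.O` with non-zero reduction `ȳ` computes
                  `dlsSlope 𝔓 N' h Y s = ord_s ȳ mod p`;
* `dlqd_cross`  : at a node `s` of a chart `C`, `dlsSlope Y s.1 = slope_{C.toCross} z mod p`;
* `dlqd_smooth` : at a free place `P` of a chart `C`, `dlsSlope Y P = slope_{C.toSmooth} z mod p`;
* `dlqd_free`   : (CONS) `p ∣` all horizontal orders of `z` ⇒ `dlsSlope Y P = 0` at a free place;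
* `dlqd_D_free`, `dlqd_D_node` : the slopes of a vertical unit `D` vanish at the free places and
                  do not vanish at the nodes.
-/
import Fermat.Agent.Lib.Delta.NodeX.InstH
import Fermat.Agent.Lib.Delta.NodeX.Dict
import Fermat.Agent.Lib.Delta.Slope.Red
import Fermat.Agent.Lib.Delta.Node.Smooth.Cll
import Fermat.Agent.Lib.Delta.Node.CrossExport
import Fermat.Agent.Lib.Delta.NodeX.Vert

set_option autoImplicit false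
set_option linter.unusedSectionVars false
set_option linter.unusedVariables false
set_option linter.style.haveILetI false
set_option synthInstance.maxHeartbeats 400000
set_option maxHeartbeats 1000000

open HahnSeries ModularCurve Fermat.Agent.T1 Fermat.Agent.T2 Fermat.Agent.T4 Fermat.Agent.TW
  Fermat.Agent.S05Lib Fermat.Agent.S24Lib AlgebraicCurve Fermat.Agent.Curve
  Fermat.Agent.S33 Fermat.Agent.S33Q

noncomputable section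

namespace Fermat.Agent.Delta

local notation "Qb" => AlgebraicClosure ℚ

attribute [local instance] t2i_dvr t2i_isAlgClosed t2i_charP t2i_fact
attribute [local instance 10000] dliAlgF dliAlgE
attribute [local instance] s33g_neZero

variable (𝔓 : FFPlace) (H : Subgroup 𝔓.I) [H.FiniteIndex] {ϖ : ↥(tbFixO 𝔓 H)}
  (hϖ : Irreducible ϖ) (N' : ℕ) [NeZero N'] (h : ¬ 𝔓.p ∣ N')

/-! ### (i) the slope from a normalisation at the level `H` -/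

/-- **(i)** any normalisation of `z` at the Gauss place `v_∞` of the level `H` computes the slopes
of the corresponding function over `Qbar` -/
theorem dlqd_slope (z : ↥(tbLevF 𝔓 (N' * 𝔓.p) H)) (hz : z ≠ 0)
    (Y : (↥(modularFunctionFieldBar (N' * 𝔓.p)))ˣ)
    (hY : (Y : ↥(modularFunctionFieldBar (N' * 𝔓.p))) = tbPhiF 𝔓 (N' * 𝔓.p) H z) {n : ℤ}
    (hn : z / (dliInfH 𝔓 H hϖ N' h).pi ^ n ∈ (dliInfH 𝔓 H hϖ N' h).O)
    (hy : (dliInfH 𝔓 H hϖ N' h).res ⟨_, hn⟩ ≠ 0)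
    (s : Place (IsLocalRing.ResidueField ↥𝔓.P) ↥(tbBarF 𝔓 N')) :
    dlsSlope 𝔓 N' h Y s =
      ((s.ord ((dliInfH 𝔓 H hϖ N' h).res ⟨_, hn⟩) : ℤ) : ZMod 𝔓.p) := by
  set g := dliInfH 𝔓 H hϖ N' h with hg
  have hϖ0 : ((ϖ : ↥(tbFixO 𝔓 H)) : ↥(tbFix 𝔓 H)) ≠ 0 := fun h0 =>
    hϖ.ne_zero (Subtype.ext h0)
  set c : Qb := (algebraMap ↥(tbFix 𝔓 H) Qb ((ϖ : ↥(tbFixO 𝔓 H)) : ↥(tbFix 𝔓 H))) ^ (-n) with hc
  have hc0 : c ≠ 0 := zpow_ne_zero _ ((map_ne_zero _).mpr hϖ0)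
  -- the Laurent series of `z / ϖ ^ n` over `Qbar`
  have hpi : tbPhiF 𝔓 (N' * 𝔓.p) H g.pi = algebraMap Qb ↥(modularFunctionFieldBar (N' * 𝔓.p))
      (algebraMap ↥(tbFix 𝔓 H) Qb ((ϖ : ↥(tbFixO 𝔓 H)) : ↥(tbFix 𝔓 H))) :=
    tbPhiF_algebraMap 𝔓 (N' * 𝔓.p) H _
  have hfun : algebraMap Qb ↥(modularFunctionFieldBar (N' * 𝔓.p)) c *
      (Y : ↥(modularFunctionFieldBar (N' * 𝔓.p))) = tbPhiF 𝔓 (N' * 𝔓.p) H (z / g.pi ^ n) := by
    rw [map_div₀ (tbPhiF 𝔓 (N' * 𝔓.p) H), map_zpow₀ (tbPhiF 𝔓 (N' * 𝔓.p) H), hpi, ← hY, hc,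
      map_zpow₀ (algebraMap Qb ↥(modularFunctionFieldBar (N' * 𝔓.p))), zpow_neg, div_eq_mul_inv]
    exact mul_comm _ _
  have hser : HahnSeries.C c * ((Y : ↥(modularFunctionFieldBar (N' * 𝔓.p))) : LaurentSeries Qb) =
      tbPhi 𝔓 H ((z / g.pi ^ n : ↥(tbLevF 𝔓 (N' * 𝔓.p) H)) : LaurentSeries ↥(tbFix 𝔓 H)) := by
    rw [← coe_tbPhiF, ← hfun, MulMemClass.coe_mul]
    congr 1
    rw [HahnSeries.C_apply, ← algebraMap_laurentSeries_eq_single]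
    rfl
  have hG : TbGauss (tbFixO 𝔓 H) (tbFixRes 𝔓 H)
      ((z / g.pi ^ n : ↥(tbLevF 𝔓 (N' * 𝔓.p) H)) : LaurentSeries ↥(tbFix 𝔓 H)) := hn
  refine dlsSlope_eq_of_gauss 𝔓 N' h Y hc0 ?_ (g.res ⟨_, hn⟩) hy ?_ s
  · rw [hser]
    exact tbPhi_gauss 𝔓 H hG
  · rw [hser, tbPhi_rho 𝔓 H hG]
    exact (coe_dliInfH_res 𝔓 H hϖ N' h _ hn).symm


/-! ### (ii) the dictionary with the local models of a chart -/

section Norm

variable {K k : Type*} [Field K] [Field k] {B : DlBase K k} {F κ : Type*} [Field F]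
  [Algebra K F] [Field κ] [Algebra k κ] (g : DlPlace B F κ)

/-- every non-zero function has a normalisation `z / ϖ ^ n` with non-zero reduction -/
theorem dlqd_exists_norm {z : F} (hz : z ≠ 0) :
    ∃ (n : ℤ) (hn : z / g.pi ^ n ∈ g.O), g.res ⟨_, hn⟩ ≠ 0 := by
  obtain ⟨m, hm, hres⟩ := g.normalize z hz
  have e : algebraMap K F B.ϖ ^ m * z = z / g.pi ^ (-m) := by
    rw [zpow_neg, div_inv_eq_mul, mul_comm]
    rfl
  refine ⟨-m, e ▸ hm, ?_⟩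
  rw [← g.res_congr hm e]
  exact hres

end Norm

section Chart

variable {σ : Type*} [Fintype σ]
  (C : DlxChart (dliInfH 𝔓 H hϖ N' h) (dliZeroH 𝔓 H hϖ N' h) σ) [IsNoetherianRing ↥C.P.B]

/-- **(ii), node**: at a node `s` of the chart, the slope of `Y` at `s.1` is the slope of `z` at the
crossing, modulo `p` -/
theorem dlqd_cross {s : Place (IsLocalRing.ResidueField ↥𝔓.P) ↥(tbBarF 𝔓 N') ×
      Place (IsLocalRing.ResidueField ↥𝔓.P) ↥(tbBarF 𝔓 N')} (hs : s ∈ C.G.nodes)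
    (hfin : C.FinAt (C.n₁ s.1 (C.node_fin₁ hs)))
    (hens : DltHens (dliBaseH 𝔓 H hϖ).A ↥(tbLevF 𝔓 (N' * 𝔓.p) H))
    (D : ↥(tbLevF 𝔓 (N' * 𝔓.p) H)) (hD0 : D ≠ 0)
    (hDhor : ∀ V ∈ t4vpHor ↥(tbFix 𝔓 H) C.x, V.valuation D = 1)
    (hD1 : C.V₁.valuation D = 1) (hD2 : C.V₂.valuation D < 1)
    (z : ↥(tbLevF 𝔓 (N' * 𝔓.p) H)) (hz : z ≠ 0)
    (Y : (↥(modularFunctionFieldBar (N' * 𝔓.p)))ˣ)
    (hY : (Y : ↥(modularFunctionFieldBar (N' * 𝔓.p))) = tbPhiF 𝔓 (N' * 𝔓.p) H z) :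
    dlsSlope 𝔓 N' h Y s.1 =
      (((C.toCross hs hfin hens D hD0 hDhor hD1 hD2).slope z : ℤ) : ZMod 𝔓.p) := by
  obtain ⟨n, hn, hy⟩ := dlqd_exists_norm (dliInfH 𝔓 H hϖ N' h) hz
  rw [C.toCross_slope hs hfin hens D hD0 hDhor hD1 hD2 hz hn hy]
  exact dlqd_slope 𝔓 H hϖ N' h z hz Y hY hn hy s.1

/-- **(ii), free place**: at a free place `P` of the chart, the slope of `Y` at `P` is the slope of
`z` at the smooth point, modulo `p` -/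
theorem dlqd_smooth (P : Place (IsLocalRing.ResidueField ↥𝔓.P) ↥(tbBarF 𝔓 N'))
    (hP : 0 ≤ P.ord C.G.x.1) (hfree : ∀ Q, (P, Q) ∉ C.G.nodes)
    (hfin : C.FinAt (C.n₁ P hP))
    (hens : DltHens (dliBaseH 𝔓 H hϖ).A ↥(tbLevF 𝔓 (N' * 𝔓.p) H))
    (z : ↥(tbLevF 𝔓 (N' * 𝔓.p) H)) (hz : z ≠ 0)
    (Y : (↥(modularFunctionFieldBar (N' * 𝔓.p)))ˣ)
    (hY : (Y : ↥(modularFunctionFieldBar (N' * 𝔓.p))) = tbPhiF 𝔓 (N' * 𝔓.p) H z) :
    dlsSlope 𝔓 N' h Y P =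
      (((C.toSmooth P hP hfree hfin hens).slope z : ℤ) : ZMod 𝔓.p) := by
  obtain ⟨n, hn, hy⟩ := dlqd_exists_norm (dliInfH 𝔓 H hϖ N' h) hz
  rw [C.toSmooth_slope P hP hfree hfin hens hz hn hy]
  exact dlqd_slope 𝔓 H hϖ N' h z hz Y hY hn hy P

/-! ### (iv) the conservation law at the free places; the vertical unit -/

/-- the horizontal valuation rings of the smooth point are horizontal for the chart -/
theorem dlqd_smooth_hor (P : Place (IsLocalRing.ResidueField ↥𝔓.P) ↥(tbBarF 𝔓 N'))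
    (hP : 0 ≤ P.ord C.G.x.1) (hfree : ∀ Q, (P, Q) ∉ C.G.nodes)
    (hfin : C.FinAt (C.n₁ P hP))
    (hens : DltHens (dliBaseH 𝔓 H hϖ).A ↥(tbLevF 𝔓 (N' * 𝔓.p) H))
    {V : ValuationSubring ↥(tbLevF 𝔓 (N' * 𝔓.p) H)}
    (hV : V ∈ (C.toSmooth P hP hfree hfin hens).hor) : V ∈ t4vpHor ↥(tbFix 𝔓 H) C.x := by
  have hV1 : V ∈ C.P.through (C.n₁ P hP) := hV.1
  rcases C.vals_cases hV1.1 with h1 | h1 | h1
  · exact absurd h1 hV.2
  · exact absurd (h1 ▸ hV1) (C.V₂_not_through_free P hP hfree)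
  · exact h1

/-- **(CONS)**: if `p` divides all horizontal orders of `z`, the slope of `Y` vanishes at every free
place of the chart -/
theorem dlqd_free (P : Place (IsLocalRing.ResidueField ↥𝔓.P) ↥(tbBarF 𝔓 N'))
    (hP : 0 ≤ P.ord C.G.x.1) (hfree : ∀ Q, (P, Q) ∉ C.G.nodes)
    (hfin : C.FinAt (C.n₁ P hP))
    (hens : DltHens (dliBaseH 𝔓 H hϖ).A ↥(tbLevF 𝔓 (N' * 𝔓.p) H))
    (z : ↥(tbLevF 𝔓 (N' * 𝔓.p) H)) (hz : z ≠ 0)
    (Y : (↥(modularFunctionFieldBar (N' * 𝔓.p)))ˣ)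
    (hY : (Y : ↥(modularFunctionFieldBar (N' * 𝔓.p))) = tbPhiF 𝔓 (N' * 𝔓.p) H z)
    (hhor : ∀ (V : ValuationSubring ↥(tbLevF 𝔓 (N' * 𝔓.p) H))
      (hV : V ∈ t4vpHor ↥(tbFix 𝔓 H) C.x) [IsDiscreteValuationRing ↥V],
      (𝔓.p : ℤ) ∣ dlOrd V z) :
    dlsSlope 𝔓 N' h Y P = 0 := by
  rw [dlqd_smooth 𝔓 H hϖ N' h C P hP hfree hfin hens z hz Y hY,
    ZMod.intCast_zmod_eq_zero_iff_dvd]
  refine dlns_slope_dvd_lit (C.toSmooth P hP hfree hfin hens) 𝔓.p hz (fun V hV => ?_)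
  exact @hhor V (dlqd_smooth_hor 𝔓 H hϖ N' h C P hP hfree hfin hens hV)
    ((C.toSmooth P hP hfree hfin hens).P.dvr V hV.1)

/-- a function which is a unit at all horizontal valuation rings of the chart has slope `0` at the
free places (in particular the vertical unit `D`) -/
theorem dlqd_D_free (P : Place (IsLocalRing.ResidueField ↥𝔓.P) ↥(tbBarF 𝔓 N'))
    (hP : 0 ≤ P.ord C.G.x.1) (hfree : ∀ Q, (P, Q) ∉ C.G.nodes)
    (hfin : C.FinAt (C.n₁ P hP))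
    (hens : DltHens (dliBaseH 𝔓 H hϖ).A ↥(tbLevF 𝔓 (N' * 𝔓.p) H))
    (D : ↥(tbLevF 𝔓 (N' * 𝔓.p) H)) (hD0 : D ≠ 0)
    (hDhor : ∀ V ∈ t4vpHor ↥(tbFix 𝔓 H) C.x, V.valuation D = 1) :
    (C.toSmooth P hP hfree hfin hens).slope D = 0 := by
  have h1 := dlns_slope_dvd_lit (C.toSmooth P hP hfree hfin hens) 0 hD0 (fun V hV => by
    haveI := (C.toSmooth P hP hfree hfin hens).P.dvr V hV.1
    have h2 := hDhor V (dlqd_smooth_hor 𝔓 H hϖ N' h C P hP hfree hfin hens hV)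
    rw [(dl_valuation_eq_one_iff V hD0).mp h2]
    exact dvd_zero _)
  rw [Nat.cast_zero] at h1
  exact zero_dvd_iff.mp h1

/-- the vertical unit has a non-zero slope at every node -/
theorem dlqd_D_node {s : Place (IsLocalRing.ResidueField ↥𝔓.P) ↥(tbBarF 𝔓 N') ×
      Place (IsLocalRing.ResidueField ↥𝔓.P) ↥(tbBarF 𝔓 N')} (hs : s ∈ C.G.nodes)
    (hfin : C.FinAt (C.n₁ s.1 (C.node_fin₁ hs)))
    (hens : DltHens (dliBaseH 𝔓 H hϖ).A ↥(tbLevF 𝔓 (N' * 𝔓.p) H))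
    (D : ↥(tbLevF 𝔓 (N' * 𝔓.p) H)) (hD0 : D ≠ 0)
    (hDhor : ∀ V ∈ t4vpHor ↥(tbFix 𝔓 H) C.x, V.valuation D = 1)
    (hD1 : C.V₁.valuation D = 1) (hD2 : C.V₂.valuation D < 1) :
    (C.toCross hs hfin hens D hD0 hDhor hD1 hD2).slope D ≠ 0 := by
  intro h0
  have h1 := dlc_thick (C.toCross hs hfin hens D hD0 hDhor hD1 hD2)
  have h2 := (C.toCross hs hfin hens D hD0 hDhor hD1 hD2).oW'_D
  have h3 : (C.toCross hs hfin hens D hD0 hDhor hD1 hD2).D = D := rfl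
  rw [h3] at h1 h2
  rw [h1, h0, zero_mul] at h2
  exact lt_irrefl _ h2

/-- the exact thickness relation for the vertical unit at a node:
`ord_{V₂} D = slope D · thickness` -/
theorem dlqd_D_thick {s : Place (IsLocalRing.ResidueField ↥𝔓.P) ↥(tbBarF 𝔓 N') ×
      Place (IsLocalRing.ResidueField ↥𝔓.P) ↥(tbBarF 𝔓 N')} (hs : s ∈ C.G.nodes)
    (hfin : C.FinAt (C.n₁ s.1 (C.node_fin₁ hs)))
    (hens : DltHens (dliBaseH 𝔓 H hϖ).A ↥(tbLevF 𝔓 (N' * 𝔓.p) H))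
    (D : ↥(tbLevF 𝔓 (N' * 𝔓.p) H)) (hD0 : D ≠ 0)
    (hDhor : ∀ V ∈ t4vpHor ↥(tbFix 𝔓 H) C.x, V.valuation D = 1)
    (hD1 : C.V₁.valuation D = 1) (hD2 : C.V₂.valuation D < 1) :
    (C.toCross hs hfin hens D hD0 hDhor hD1 hD2).oW' D =
      (C.toCross hs hfin hens D hD0 hDhor hD1 hD2).slope D *
        (C.toCross hs hfin hens D hD0 hDhor hD1 hD2).thick :=
  dlc_thick (C.toCross hs hfin hens D hD0 hDhor hD1 hD2)

end Chart


/-! ### (iii) non-cuspidal places and the chart coordinate `ξ` -/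

section Xi

variable {k F : Type*} [Field k] [Field F] [Algebra k F] (v : Place k F)

/-- `ord_v ((j ^ (q²) − j) ^ (q + 1))` is non-negative iff `ord_v j` is -/
theorem dlqd_ord_xi_nonneg_iff (j : F) {q : ℕ} (hq : 2 ≤ q) :
    0 ≤ v.ord ((j ^ (q ^ 2) - j) ^ (q + 1)) ↔ 0 ≤ v.ord j := by
  constructor
  · intro hξ
    by_contra hj
    rw [not_le] at hj
    have hj0 : j ≠ 0 := by
      rintro rfl
      rw [v.ord_zero] at hj
      exact lt_irrefl _ hj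
    have hq2 : (2 : ℤ) ≤ ((q ^ 2 : ℕ) : ℤ) := by
      have : 2 ≤ q ^ 2 := by nlinarith
      exact_mod_cast this
    have h1 : v.ord (j ^ (q ^ 2)) = ((q ^ 2 : ℕ) : ℤ) * v.ord j := by
      rw [← zpow_natCast, v.ord_zpow]
    have hneg : v.ord (-j) = v.ord j := by
      simp only [Place.ord, Valuation.map_neg]
    have h2 : v.ord (j ^ (q ^ 2)) < v.ord (-j) := by
      rw [h1, hneg]
      nlinarith
    have h3 : v.ord (j ^ (q ^ 2) - j) = ((q ^ 2 : ℕ) : ℤ) * v.ord j := by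
      rw [sub_eq_add_neg, PlaceAux.ord_add_of_lt v (pow_ne_zero _ hj0) h2, h1]
    have h4 : v.ord ((j ^ (q ^ 2) - j) ^ (q + 1)) =
        ((q + 1 : ℕ) : ℤ) * (((q ^ 2 : ℕ) : ℤ) * v.ord j) := by
      rw [← zpow_natCast, v.ord_zpow, h3]
    rw [h4] at hξ
    have h5 : (0 : ℤ) < ((q + 1 : ℕ) : ℤ) := by exact_mod_cast Nat.succ_pos q
    have h6 : ((q ^ 2 : ℕ) : ℤ) * v.ord j < 0 := by nlinarith
    nlinarith
  · intro hj
    apply PlaceAux.ord_nonneg_of_mem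
    have hjm := PlaceAux.mem_of_ord_nonneg v hj
    exact Subring.pow_mem _ (Subring.sub_mem _ (Subring.pow_mem _ hjm _) hjm) _

end Xi

/-- **(iii)** the non-cuspidal places are the places at which the chart coordinate `ξ` is regular -/
theorem dlqd_fin_iff (s : Place (IsLocalRing.ResidueField ↥𝔓.P) ↥(tbBarF 𝔓 N')) :
    DlsFin 𝔓 N' s ↔ 0 ≤ s.ord (s33qXi 𝔓 N') :=
  (dlqd_ord_xi_nonneg_iff s (tbBarJ 𝔓 N') 𝔓.hp.two_le).symm

/-- **(iii)** at the cuspidal places `ξ⁻¹` is regular -/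
theorem dlqd_cusp_xi_inv (s : Place (IsLocalRing.ResidueField ↥𝔓.P) ↥(tbBarF 𝔓 N'))
    (hs : ¬ DlsFin 𝔓 N' s) : 0 ≤ s.ord (s33qXi 𝔓 N')⁻¹ := by
  rw [dlqd_fin_iff, not_le] at hs
  rw [s.ord_inv]
  omega


/-! ### (iv) (CONS) at all free places of `Z_∞`: charts 1 and 2 of `InstH` -/

section Inst

variable (h49 : 4 ∣ N' ∨ 9 ∣ N') {n : ℕ} (su : T2Setup (t2iBase2Fix 𝔓 H N' h) (Fin n))
  (hx : su.x = t2gaX 𝔓 H N' h (𝔓.p ^ 2)) (hxb : su.xb = (s33qXi 𝔓 N', s33qXi 𝔓 N'))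

/-- a non-cuspidal place lies on chart 1 -/
theorem dlqd_hP1 (P : Place (IsLocalRing.ResidueField ↥𝔓.P) ↥(tbBarF 𝔓 N'))
    (hP : DlsFin 𝔓 N' P) : 0 ≤ P.ord (dlxChart1 𝔓 H hϖ N' h h49 su hx hxb).G.x.1 := by
  rw [dlxChart1_Gx]
  exact (dlqd_fin_iff 𝔓 N' P).mp hP

/-- a cuspidal place lies on chart 2 -/
theorem dlqd_hP2 (P : Place (IsLocalRing.ResidueField ↥𝔓.P) ↥(tbBarF 𝔓 N'))
    (hP : ¬ DlsFin 𝔓 N' P) : 0 ≤ P.ord (dlxChart2 𝔓 H hϖ N' h su hx hxb).G.x.1 := by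
  rw [dlxChart2_Gx]
  exact dlqd_cusp_xi_inv 𝔓 N' P hP

/-- **(CONS) at the non-cuspidal free places**: if `p` divides the orders of `z` at all places of
`F_H / L_H`, then the slope of `Y` vanishes at every non-cuspidal place of `Z_∞` which is not a
node of chart 1 -/
theorem dlqd_free1 (P : Place (IsLocalRing.ResidueField ↥𝔓.P) ↥(tbBarF 𝔓 N'))
    (hP : DlsFin 𝔓 N' P)
    (hfree : ∀ Q, (P, Q) ∉ (dlxChart1 𝔓 H hϖ N' h h49 su hx hxb).G.nodes)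
    (z : ↥(tbLevF 𝔓 (N' * 𝔓.p) H)) (hz : z ≠ 0)
    (Y : (↥(modularFunctionFieldBar (N' * 𝔓.p)))ˣ)
    (hY : (Y : ↥(modularFunctionFieldBar (N' * 𝔓.p))) = tbPhiF 𝔓 (N' * 𝔓.p) H z)
    (hhor : ∀ (x : ↥(tbLevF 𝔓 (N' * 𝔓.p) H)) (V : ValuationSubring ↥(tbLevF 𝔓 (N' * 𝔓.p) H))
      (hV : V ∈ t4vpHor ↥(tbFix 𝔓 H) x) [IsDiscreteValuationRing ↥V], (𝔓.p : ℤ) ∣ dlOrd V z) :
    dlsSlope 𝔓 N' h Y P = 0 :=
  dlqd_free 𝔓 H hϖ N' h (dlxChart1 𝔓 H hϖ N' h h49 su hx hxb) P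
    (dlqd_hP1 𝔓 H hϖ N' h h49 su hx hxb P hP) hfree
    (dlxChart1_finAt 𝔓 H hϖ N' h h49 su hx hxb P _) (dlx_hensH 𝔓 H hϖ N') z hz Y hY
    (fun V hV _ => hhor _ V hV)

include hϖ h49 su hx hxb in
/-- **(CONS) at the cusps**: if `p` divides the orders of `z` at all places of `F_H / L_H`, then the
slope of `Y` vanishes at every cuspidal place of `Z_∞` -/
theorem dlqd_cusp (P : Place (IsLocalRing.ResidueField ↥𝔓.P) ↥(tbBarF 𝔓 N'))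
    (hP : ¬ DlsFin 𝔓 N' P)
    (z : ↥(tbLevF 𝔓 (N' * 𝔓.p) H)) (hz : z ≠ 0)
    (Y : (↥(modularFunctionFieldBar (N' * 𝔓.p)))ˣ)
    (hY : (Y : ↥(modularFunctionFieldBar (N' * 𝔓.p))) = tbPhiF 𝔓 (N' * 𝔓.p) H z)
    (hhor : ∀ (x : ↥(tbLevF 𝔓 (N' * 𝔓.p) H)) (V : ValuationSubring ↥(tbLevF 𝔓 (N' * 𝔓.p) H))
      (hV : V ∈ t4vpHor ↥(tbFix 𝔓 H) x) [IsDiscreteValuationRing ↥V], (𝔓.p : ℤ) ∣ dlOrd V z) :
    dlsSlope 𝔓 N' h Y P = 0 := by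
  haveI := dlxChart2_noeth 𝔓 H hϖ N' h h49 su hx hxb
  exact dlqd_free 𝔓 H hϖ N' h (dlxChart2 𝔓 H hϖ N' h su hx hxb) P
    (dlqd_hP2 𝔓 H hϖ N' h su hx hxb P hP) (dlxChart2_free 𝔓 H hϖ N' h su hx hxb P)
    (dlxChart2_finAt 𝔓 H hϖ N' h h49 su hx hxb P _) (dlx_hensH 𝔓 H hϖ N') z hz Y hY
    (fun V hV _ => hhor _ V hV)

include hx in
/-- the vertical unit `D` is a unit at all horizontal valuation rings of chart 1 -/
theorem dlqd_vert_hor1 (V : ValuationSubring ↥(tbLevF 𝔓 (N' * 𝔓.p) H))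
    (hV : V ∈ t4vpHor ↥(tbFix 𝔓 H) (dlxChart1 𝔓 H hϖ N' h h49 su hx hxb).x) :
    V.valuation (dlxVertD 𝔓 H N') = 1 := by
  have hQ : 2 ≤ 𝔓.p ^ 2 := by
    have := 𝔓.hp.two_le
    nlinarith
  rw [dlxChart1_x, hx] at hV
  exact dlxVertD_hor 𝔓 H N' h hQ V hV

/-- **the slopes of the vertical unit vanish at the non-cuspidal free places** -/
theorem dlqd_vert_free1 (P : Place (IsLocalRing.ResidueField ↥𝔓.P) ↥(tbBarF 𝔓 N'))
    (hP : DlsFin 𝔓 N' P)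
    (hfree : ∀ Q, (P, Q) ∉ (dlxChart1 𝔓 H hϖ N' h h49 su hx hxb).G.nodes)
    (fV : (↥(modularFunctionFieldBar (N' * 𝔓.p)))ˣ)
    (hfV : (fV : ↥(modularFunctionFieldBar (N' * 𝔓.p))) =
      tbPhiF 𝔓 (N' * 𝔓.p) H (dlxVertD 𝔓 H N')) :
    dlsSlope 𝔓 N' h fV P = 0 := by
  rw [dlqd_smooth 𝔓 H hϖ N' h (dlxChart1 𝔓 H hϖ N' h h49 su hx hxb) P
    (dlqd_hP1 𝔓 H hϖ N' h h49 su hx hxb P hP) hfree
    (dlxChart1_finAt 𝔓 H hϖ N' h h49 su hx hxb P _) (dlx_hensH 𝔓 H hϖ N')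
    (dlxVertD 𝔓 H N') (dlxVertD_ne_zero 𝔓 H N') fV hfV,
    dlqd_D_free 𝔓 H hϖ N' h (dlxChart1 𝔓 H hϖ N' h h49 su hx hxb) P _ hfree _ _
      (dlxVertD 𝔓 H N') (dlxVertD_ne_zero 𝔓 H N')
      (dlqd_vert_hor1 𝔓 H hϖ N' h h49 su hx hxb), Int.cast_zero]

end Inst

end Fermat.Agent.Delta
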