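/-
DELTA / SL-CORE (helper2): **the abstract core computation at one node**.

Two levels `1` (`= H₁`, tame, where the conservation law is applied) and `2` (`= H ≤ H₁`, where the
Kummer function `zx` of `x ∈ V ∖ L` is defined):
`I₁ : DltInput L₁ F₁ F'₁`, `I₂ : DltInput L₂ F₂ F'₂` the étale transfers of the node `s` of `X` to
the node `(s, ρ)` of the cover `Y` at both levels, compatible along `ιF : F₁ → F₂`, `ιF' : F'₁ → F'₂`.

* `dlq_ord_comap`, `dlq_ord_node_W`, `dlq_ord_node_W'` : orders do not change (`e = 1`);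
* `dlq_node_map` : `ιF'` maps `A'₁` to `A'₂` and `𝔭_{W̃₁}` to `𝔭_{W̃₂}` (from `ιF' u₁ = u₂`,
  `ιF ρ₁ = ρ₂`, `ιF A₁ ⊆ A₂` local, `W₂ ∩ F₁ = W₁`);
* **`dlq_core_node`** : if `ιF' z' = zx · r ^ p` (`z' ∈ F'₁` with `p ∣` horizontal orders,
  `zx ∈ F₂`, `r ∈ F'₂`) and `D ∈ F₁` has no horizontal part at the node, then
  `p ∣ slope₂ zx · (ord_{W'} D − ord_W D) − slope₁ D · (ord_{W̃'} z' − ord_{W̃} z')`.
-/
import Fermat.Agent.Lib.Delta.Core.Transfer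

set_option autoImplicit false
set_option linter.unusedSectionVars false
set_option linter.style.haveILetI false

namespace Fermat.Agent.Delta

open Polynomial Fermat.Agent.T4

universe uL uF uF' vL vF vF'

section Comap

variable {F₁ F₂ : Type*} [Field F₁] [Field F₂]

theorem dlq_comap_le_one (V : ValuationSubring F₂) (ι : F₁ →+* F₂) (x : F₁) :
    (V.comap ι).valuation x ≤ 1 ↔ V.valuation (ι x) ≤ 1 := by
  rw [ValuationSubring.valuation_le_one_iff, ValuationSubring.valuation_le_one_iff,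
    ValuationSubring.mem_comap]

theorem dlq_comap_lt_one (V : ValuationSubring F₂) (ι : F₁ →+* F₂) (x : F₁) :
    (V.comap ι).valuation x < 1 ↔ V.valuation (ι x) < 1 := by
  rw [dlt_val_lt_one_iff, dlt_val_lt_one_iff, ValuationSubring.mem_comap, map_inv₀,
    _root_.map_eq_zero]

theorem dlq_comap_eq_one (V : ValuationSubring F₂) (ι : F₁ →+* F₂) (x : F₁) :
    (V.comap ι).valuation x = 1 ↔ V.valuation (ι x) = 1 := by
  rw [eq_iff_le_not_lt, eq_iff_le_not_lt, dlq_comap_le_one, dlq_comap_lt_one]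

/-- orders do not change along an unramified embedding of discrete valuation rings -/
theorem dlq_ord_comap (V₂ : ValuationSubring F₂) [IsDiscreteValuationRing V₂] (ι : F₁ →+* F₂)
    (V₁ : ValuationSubring F₁) [IsDiscreteValuationRing V₁] (hV : V₂.comap ι = V₁) {a : F₁}
    (ha₁ : DlUnif V₁ a) (ha₂ : DlUnif V₂ (ι a)) (z : F₁) : dlOrd V₂ (ι z) = dlOrd V₁ z := by
  rcases eq_or_ne z 0 with rfl | hz
  · rw [map_zero, dlOrd_zero, dlOrd_zero]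
  have h1 := dln_ord_of_unif V₁ ha₁
  have h2 := dln_ord_of_unif V₂ ha₂
  obtain ⟨u, hu, hzu⟩ := dl_exists_unit_mul_zpow V₁ h1 hz
  have hu0 : u ≠ 0 := by
    rintro rfl; rw [map_zero] at hu; exact zero_ne_one hu
  have ha0 : a ≠ 0 := by
    rintro rfl; simp at h1
  have hιu : V₂.valuation (ι u) = 1 := by
    rw [← dlq_comap_eq_one, hV]; exact hu
  have hιu0 : ι u ≠ 0 := (_root_.map_ne_zero ι).mpr hu0
  have hιa0 : ι a ≠ 0 := (_root_.map_ne_zero ι).mpr ha0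
  conv_lhs => rw [hzu]
  rw [map_mul, map_zpow₀, dlOrd_mul V₂ hιu0 (zpow_ne_zero _ hιa0), dlOrd_zpow, h2,
    (dl_valuation_eq_one_iff V₂ hιu0).mp hιu]
  ring

end Comap

section Node

variable {L : Type uL} {F : Type uF} {F' : Type uF'} [Field L] [Field F] [Field F']
  [Algebra L F] [Algebra F F'] [Algebra L F'] [IsScalarTower L F F']
  (I : DltInput L F F') (hens : DltHens I.𝒩.O F')

/-- `ord_{W̃} = ord_W` on `F` -/
theorem dlq_ord_node_W (z : F) :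
    (haveI := (I.node hens).P.dvr _ (I.node hens).hW; dlOrd (I.node hens).W (algebraMap F F' z)) =
      (haveI := I.𝒩.P.dvr _ I.𝒩.hW; dlOrd I.𝒩.W z) := by
  haveI := (I.node hens).P.dvr _ (I.node hens).hW
  haveI := I.𝒩.P.dvr _ I.𝒩.hW
  refine dlq_ord_comap (I.node hens).W (algebraMap F F') I.𝒩.W (I.node_W_comap hens) I.𝒩.ϖW ?_ z
  have := (I.node hens).ϖW
  rwa [I.node_ϖ, IsScalarTower.algebraMap_apply L F F'] at this

/-- `ord_{W̃'} = ord_W'` on `F` -/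
theorem dlq_ord_node_W' (z : F) :
    (haveI := (I.node hens).P.dvr _ (I.node hens).hW';
      dlOrd (I.node hens).W' (algebraMap F F' z)) =
      (haveI := I.𝒩.P.dvr _ I.𝒩.hW'; dlOrd I.𝒩.W' z) := by
  haveI := (I.node hens).P.dvr _ (I.node hens).hW'
  haveI := I.𝒩.P.dvr _ I.𝒩.hW'
  refine dlq_ord_comap (I.node hens).W' (algebraMap F F') I.𝒩.W' (I.node_W'_comap hens) I.𝒩.ϖW' ?_ z
  have := (I.node hens).ϖW'
  rwa [I.node_ϖ, IsScalarTower.algebraMap_apply L F F'] at this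

/-- a function without horizontal part downstairs has no horizontal part upstairs -/
theorem dlq_noHor_node {D : F} (hD : ∀ V ∈ I.𝒩.toDlLocal.hor, V.valuation D = 1) :
    ∀ Vt ∈ (I.node hens).toDlLocal.hor, Vt.valuation (algebraMap F F' D) = 1 := by
  intro Vt hVt
  rw [← dlt_comap_eq_one]
  exact hD _ (I.comap_mem_hor hens hVt)

end Node

section Map

variable {L₁ : Type uL} {F₁ : Type uF} {F'₁ : Type uF'} [Field L₁] [Field F₁] [Field F'₁]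
  [Algebra L₁ F₁] [Algebra F₁ F'₁] [Algebra L₁ F'₁] [IsScalarTower L₁ F₁ F'₁]
  {L₂ : Type vL} {F₂ : Type vF} {F'₂ : Type vF'} [Field L₂] [Field F₂] [Field F'₂]
  [Algebra L₂ F₂] [Algebra F₂ F'₂] [Algebra L₂ F'₂] [IsScalarTower L₂ F₂ F'₂]
  (I₁ : DltInput L₁ F₁ F'₁) (I₂ : DltInput L₂ F₂ F'₂)
  (ιF : F₁ →+* F₂) (ιF' : F'₁ →+* F'₂)
  (hsq : ∀ f : F₁, ιF' (algebraMap F₁ F'₁ f) = algebraMap F₂ F'₂ (ιF f))
  (hu : ιF' I₁.g.u = I₂.g.u) (hρ : ιF I₁.ρ = I₂.ρ)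
  (hA : ∀ f ∈ I₁.𝒩.P.B, ιF f ∈ I₂.𝒩.P.B)
  (hloc : ∀ f : ↥I₁.𝒩.P.B, IsUnit f → IsUnit (⟨ιF f, hA f f.2⟩ : ↥I₂.𝒩.P.B))
  (hWc : I₂.𝒩.W.comap ιF = I₁.𝒩.W)

include hsq hu hA in
/-- `ιF'` maps `A₁[u]` to `A₂[u]` -/
theorem dlq_map_adj {b : F'₁} (hb : b ∈ I₁.P'.B) : ιF' b ∈ I₂.P'.B := by
  obtain ⟨T, hT, rfl⟩ := I₁.g.mem_adj.mp hb
  rw [dlt_mem_pol_iff] at hT
  rw [aeval_eq_sum_range, map_sum]
  refine Subring.sum_mem _ fun i _ => ?_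
  rw [Algebra.smul_def, map_mul, map_pow, hsq, hu]
  exact Subring.mul_mem _ (I₂.algebraMap_mem' (hA _ (hT i))) (Subring.pow_mem _ I₂.u_mem' i)

include hsq hu hρ hA hloc in
/-- elements outside `𝔫'₁` map outside `𝔫'₂` -/
theorem dlq_map_not_mem {b : ↥I₁.P'.B} (hb : b ∉ I₁.N') :
    (⟨ιF' b, dlq_map_adj I₁ I₂ ιF ιF' hsq hu hA b.2⟩ : ↥I₂.P'.B) ∉ I₂.N' := by
  obtain ⟨T, hT, hTb⟩ := I₁.g.mem_adj.mp b.2
  have hT' : T.map ιF ∈ dltPol I₂.A := by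
    rw [dlt_mem_pol_iff] at hT ⊢
    intro n
    rw [coeff_map]
    exact hA _ (hT n)
  have hb1 : (⟨aeval I₁.g.u T, I₁.g.mem_adj.mpr ⟨T, hT, rfl⟩⟩ : ↥I₁.P'.B) ∉ I₁.N' := by
    have : (⟨aeval I₁.g.u T, I₁.g.mem_adj.mpr ⟨T, hT, rfl⟩⟩ : ↥I₁.P'.B) = b := Subtype.ext hTb
    rw [this]; exact hb
  rw [I₁.aeval_mem_N'_iff hT, IsLocalRing.mem_maximalIdeal, mem_nonunits_iff, not_not] at hb1
  have h2 := hloc _ hb1
  have h3 : ιF' (b : F'₁) = aeval I₂.g.u (T.map ιF) := by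
    rw [← hTb, aeval_eq_sum_range, aeval_eq_sum_range, map_sum, natDegree_map]
    refine Finset.sum_congr rfl fun i _ => ?_
    rw [Algebra.smul_def, Algebra.smul_def, map_mul, map_pow, hsq, hu, coeff_map]
  have h4 : (⟨ιF' b, dlq_map_adj I₁ I₂ ιF ιF' hsq hu hA b.2⟩ : ↥I₂.P'.B) =
      ⟨aeval I₂.g.u (T.map ιF), I₂.g.mem_adj.mpr ⟨_, hT', rfl⟩⟩ := Subtype.ext h3
  rw [h4, I₂.aeval_mem_N'_iff hT', IsLocalRing.mem_maximalIdeal, mem_nonunits_iff, not_not]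
  have h5 : (⟨eval I₂.ρ (T.map ιF), dlt_eval_mem hT' I₂.hρ⟩ : ↥I₂.A) =
      ⟨ιF (eval I₁.ρ T), hA _ (dlt_eval_mem hT I₁.hρ)⟩ := by
    apply Subtype.ext
    show eval I₂.ρ (T.map ιF) = ιF (eval I₁.ρ T)
    rw [← hρ, eval_map, eval₂_hom]
  rw [h5]
  exact h2

include hsq hu hρ hA hloc in
/-- `ιF'` maps `A'₁` to `A'₂` -/
theorem dlq_map_loc {f : F'₁} (hf : f ∈ I₁.P''.B) : ιF' f ∈ I₂.P''.B := by
  obtain ⟨c, hc, hcf⟩ := I₁.P'.mem_loc_iff.mp hf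
  have hc2 := dlq_map_not_mem I₁ I₂ ιF ιF' hsq hu hρ hA hloc hc
  have hinv := I₂.inv_mem_of_not_mem hc2
  have hcf2 : ιF' ((c : F'₁) * f) ∈ I₂.P''.B :=
    I₂.B'_le (dlq_map_adj I₁ I₂ ιF ιF' hsq hu hA hcf)
  have hc0 : ιF' (c : F'₁) ≠ 0 := by
    intro h0
    apply hc2
    have : (⟨ιF' c, dlq_map_adj I₁ I₂ ιF ιF' hsq hu hA c.2⟩ : ↥I₂.P'.B) = 0 := Subtype.ext h0
    rw [this]; exact Ideal.zero_mem _
  have h1 : ιF' f = (ιF' (c : F'₁))⁻¹ * ιF' ((c : F'₁) * f) := by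
    rw [map_mul]; field_simp
  rw [h1]
  exact Subring.mul_mem _ hinv hcf2

variable (hens₁ : DltHens I₁.𝒩.O F'₁) (hens₂ : DltHens I₂.𝒩.O F'₂)

include hsq hu hρ hA hloc hWc in
/-- the vertical valuation ring `W̃₂` restricts to `W̃₁` -/
theorem dlq_map_W : (I₂.node hens₂).W.comap ιF' = (I₁.node hens₁).W := by
  have h1 : ((I₂.node hens₂).W.comap ιF').comap (algebraMap F₁ F'₁) = I₁.𝒩.W := by
    ext x
    rw [ValuationSubring.mem_comap, ValuationSubring.mem_comap, hsq, ← hWc,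
      ValuationSubring.mem_comap, ← I₂.node_W_comap hens₂, ValuationSubring.mem_comap]
  refine I₁.brW.eq_up ⟨?_, ?_⟩ h1
  · show ((I₂.node hens₂).W.comap ιF').comap (algebraMap F₁ F'₁) ∈ I₁.𝒩.P.vals
    rw [h1]; exact I₁.𝒩.hW
  · intro b hb
    by_contra hbn
    have h2 := dlq_map_not_mem I₁ I₂ ιF ιF' hsq hu hρ hA hloc hbn
    have h3 := I₂.P'.valuation_eq_one_of_not_mem (I₂.node hens₂).hW h2
    rw [dlq_comap_lt_one] at hb
    have h4 : (I₂.node hens₂).W.valuation (ιF' (b : F'₁)) = 1 := h3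
    rw [h4] at hb
    exact lt_irrefl _ hb

include hsq hu hρ hA hloc hWc in
/-- **(SL2')** the slopes on the cover do not depend on the level -/
theorem dlq_slope_level (hπ : I₂.𝒩.slope (ιF (algebraMap L₁ F₁ I₁.𝒩.ϖ)) = 0)
    (ht : I₂.𝒩.slope (ιF I₁.𝒩.t) = 1) {z : F'₁} (hz : z ≠ 0) :
    (I₂.node hens₂).slope (ιF' z) = (I₁.node hens₁).slope z := by
  have hπ0 : algebraMap L₁ F₁ I₁.𝒩.ϖ ≠ 0 := dln_pi_ne_zero I₁.𝒩.toDlLocal
  have ht0 : I₁.𝒩.t ≠ 0 := I₁.t_ne_zero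
  refine dlq_slope_transfer ιF' (I₁.node hens₁) (I₂.node hens₂)
    (fun f hf => dlq_map_loc I₁ I₂ ιF ιF' hsq hu hρ hA hloc hf) ?_ ?_ ?_ hz
  · intro f hf
    rw [← dlq_comap_lt_one, dlq_map_W I₁ I₂ ιF ιF' hsq hu hρ hA hloc hWc hens₁ hens₂]
    exact hf
  · show (I₂.node hens₂).slope (ιF' (algebraMap L₁ F'₁ I₁.𝒩.ϖ)) = 0
    rw [IsScalarTower.algebraMap_apply L₁ F₁ F'₁, hsq,
      dlq_slope_node I₂ hens₂ ((_root_.map_ne_zero ιF).mpr hπ0)]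
    exact hπ
  · show (I₂.node hens₂).slope (ιF' (algebraMap F₁ F'₁ I₁.𝒩.t)) = 1
    rw [hsq, dlq_slope_node I₂ hens₂ ((_root_.map_ne_zero ιF).mpr ht0)]
    exact ht

include hsq hu hρ hA hloc hWc hens₂ in
/-- **the core computation at one node** -/
theorem dlq_core_node (hπ : I₂.𝒩.slope (ιF (algebraMap L₁ F₁ I₁.𝒩.ϖ)) = 0)
    (ht : I₂.𝒩.slope (ιF I₁.𝒩.t) = 1) (p : ℕ)
    {zx : F₂} (hzx : zx ≠ 0) {r : F'₂} (hr : r ≠ 0) {z' : F'₁} (hz' : z' ≠ 0)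
    (hrel : ιF' z' = algebraMap F₂ F'₂ zx * r ^ p)
    (hhor : ∀ (V : ValuationSubring F'₁) (hV : V ∈ (I₁.node hens₁).toDlLocal.hor),
      (p : ℤ) ∣ (haveI := (I₁.node hens₁).P.dvr V hV.1; dlOrd V z'))
    {D : F₁} (hD : D ≠ 0) (hDhor : ∀ V ∈ I₁.𝒩.toDlLocal.hor, V.valuation D = 1) :
    (p : ℤ) ∣ I₂.𝒩.slope zx *
        ((haveI := I₁.𝒩.P.dvr _ I₁.𝒩.hW'; dlOrd I₁.𝒩.W' D) -
          (haveI := I₁.𝒩.P.dvr _ I₁.𝒩.hW; dlOrd I₁.𝒩.W D)) -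
      I₁.𝒩.slope D *
        ((haveI := (I₁.node hens₁).P.dvr _ (I₁.node hens₁).hW'; dlOrd (I₁.node hens₁).W' z') -
          (haveI := (I₁.node hens₁).P.dvr _ (I₁.node hens₁).hW; dlOrd (I₁.node hens₁).W z')) := by
  have hD' : algebraMap F₁ F'₁ D ≠ 0 := (_root_.map_ne_zero _).mpr hD
  have hcll := dln_cll_free_lit (I₁.node hens₁) p hz' hhor hD' (dlq_noHor_node I₁ hens₁ hDhor)
  rw [dlq_slope_node I₁ hens₁ hD, dlq_ord_node_W I₁ hens₁ D, dlq_ord_node_W' I₁ hens₁ D,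
    ← dlq_slope_level I₁ I₂ ιF ιF' hsq hu hρ hA hloc hWc hens₁ hens₂ hπ ht hz', hrel,
    (I₂.node hens₂).slope_mul ((_root_.map_ne_zero _).mpr hzx) (pow_ne_zero _ hr),
    dlq_slope_node I₂ hens₂ hzx, (I₂.node hens₂).slope_pow] at hcll
  have h1 : I₂.𝒩.slope zx *
        ((haveI := I₁.𝒩.P.dvr _ I₁.𝒩.hW'; dlOrd I₁.𝒩.W' D) -
          (haveI := I₁.𝒩.P.dvr _ I₁.𝒩.hW; dlOrd I₁.𝒩.W D)) -
      I₁.𝒩.slope D *
        ((haveI := (I₁.node hens₁).P.dvr _ (I₁.node hens₁).hW'; dlOrd (I₁.node hens₁).W' z') -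
          (haveI := (I₁.node hens₁).P.dvr _ (I₁.node hens₁).hW; dlOrd (I₁.node hens₁).W z')) =
      ((I₂.𝒩.slope zx + (p : ℤ) * (I₂.node hens₂).slope r) *
        ((haveI := I₁.𝒩.P.dvr _ I₁.𝒩.hW'; dlOrd I₁.𝒩.W' D) -
          (haveI := I₁.𝒩.P.dvr _ I₁.𝒩.hW; dlOrd I₁.𝒩.W D)) -
      I₁.𝒩.slope D *
        ((haveI := (I₁.node hens₁).P.dvr _ (I₁.node hens₁).hW'; dlOrd (I₁.node hens₁).W' z') -
          (haveI := (I₁.node hens₁).P.dvr _ (I₁.node hens₁).hW; dlOrd (I₁.node hens₁).W z'))) -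
      (p : ℤ) * ((I₂.node hens₂).slope r *
        ((haveI := I₁.𝒩.P.dvr _ I₁.𝒩.hW'; dlOrd I₁.𝒩.W' D) -
          (haveI := I₁.𝒩.P.dvr _ I₁.𝒩.hW; dlOrd I₁.𝒩.W D))) := by ring
  rw [h1]
  exact dvd_sub hcll (dvd_mul_right _ _)

end Map

end Fermat.Agent.Delta
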