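/-
DELTA / SL-CORE (helper2): **the family of nodes of two charts at two levels**.

`C` (level `1`, tame, over `B₁`), `C'` (level `2`, over `B₂`), `h : DlxHom C C'`.
* `dlqf_toNode_*`   : transport of the fields of `𝒞.toNode` (`DlCross.toNode_toDlLocal` is only
  propositional);
* `dlqf_slope_hom`  : **the slopes do not depend on the level**:
  `(C'.toCross hs' …).slope (ιF z) = (C.toCross hs …).slope z` for nodes with the same first branch;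
* `dlqf_input₁`, `dlqf_input₂` : the inputs of the étale transfer at a node, at both levels, from a
  normal form `Z = w ^ p (1 + ϖ ^ p b)` of the Kummer function at the node;
* **`dlqf_family`** : the hypotheses of `dly_core_family` for the family of all pairs of nodes with
  the same first branch; conclusion: ONE `γ` with
  `p ∣ slope₂ zx · (ord_{V₂} D − ord_{V₁} D) − slope₁ D · γ` at all of them.
-/
import Fermat.Agent.Lib.Delta.NodeX.Hom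
import Fermat.Agent.Lib.Delta.Cover.Family
import Fermat.Agent.Lib.Delta.Cover.Input
import Fermat.Agent.Lib.Delta.Cover.Root

set_option autoImplicit false
set_option linter.unusedSectionVars false
set_option linter.unusedVariables false
set_option linter.style.haveILetI false

namespace Fermat.Agent.Delta

open AlgebraicCurve Fermat.Agent.Curve Fermat.Agent.Curve.PlaceAux Fermat.Agent.T1 Fermat.Agent.T2
  Fermat.Agent.T4 Polynomial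

section Transport

variable {L F : Type*} [Field L] [Field F] [Algebra L F] (𝒞 : DlCross L F)

theorem dlqf_toNode_W : 𝒞.toNode.W = 𝒞.W := congrArg DlLocal.W 𝒞.toNode_toDlLocal

theorem dlqf_toNode_W' : 𝒞.toNode.W' = 𝒞.W' := congrArg DlLocal.W' 𝒞.toNode_toDlLocal

theorem dlqf_toNode_O : 𝒞.toNode.O = 𝒞.O := congrArg DlLocal.O 𝒞.toNode_toDlLocal

theorem dlqf_toNode_ϖ : 𝒞.toNode.ϖ = 𝒞.ϖ := congrArg DlLocal.ϖ 𝒞.toNode_toDlLocal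

theorem dlqf_toNode_B : 𝒞.toNode.P.B = 𝒞.P.B :=
  congrArg (fun 𝒩 : DlLocal L F => 𝒩.P.B) 𝒞.toNode_toDlLocal

theorem dlqf_toNode_hor : 𝒞.toNode.toDlLocal.hor = 𝒞.toDlLocal.hor :=
  congrArg DlLocal.hor 𝒞.toNode_toDlLocal

theorem dlqf_toNode_isU {x : F} : 𝒞.toNode.IsU x ↔ 𝒞.IsU x := by
  rw [𝒞.toNode_toDlLocal]

/-- units of a local ring of a `DlLocal` in terms of a subring equal to it -/
theorem dlqf_isUnit_iff (𝒩 : DlLocal L F) {A : Subring F} (hA : 𝒩.P.B = A) {x : F}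
    (hx : x ∈ 𝒩.P.B) : IsUnit (⟨x, hx⟩ : ↥𝒩.P.B) ↔ IsUnit (⟨x, hA ▸ hx⟩ : ↥A) := by
  subst hA
  rfl

end Transport

section Slope

variable {L₁ L₂ k : Type*} [Field L₁] [Field L₂] [Field k] {B₁ : DlBase L₁ k} {B₂ : DlBase L₂ k}
  {F₁ F₂ κ₁ κ₂ : Type*} [Field F₁] [Field F₂] [Algebra L₁ F₁] [Algebra L₂ F₂]
  [Field κ₁] [Algebra k κ₁] [Field κ₂] [Algebra k κ₂] [IsAlgClosed k]
  {g₁ : DlPlace B₁ F₁ κ₁} {g₂ : DlPlace B₁ F₁ κ₂} {g₁' : DlPlace B₂ F₂ κ₁}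
  {g₂' : DlPlace B₂ F₂ κ₂} {σ σ' : Type*} [Fintype σ] [Fintype σ']

/-- normalisation in the form used by the dictionary -/
theorem dlqf_exists_norm (g : DlPlace B₁ F₁ κ₁) {z : F₁} (hz : z ≠ 0) :
    ∃ n : ℤ, ∃ hn : z / g.pi ^ n ∈ g.O, g.res ⟨_, hn⟩ ≠ 0 := by
  obtain ⟨n, hn, hres⟩ := g.normalize z hz
  have e : algebraMap L₁ F₁ B₁.ϖ ^ n * z = z / g.pi ^ (-n) := by
    rw [zpow_neg, div_inv_eq_mul, mul_comm]; rfl
  refine ⟨-n, e ▸ hn, ?_⟩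
  rwa [← g.res_congr hn e]

section Unit

variable (C : DlxChart g₁ g₂ σ) [IsDiscreteValuationRing ↥B₁.A] [IsNoetherianRing ↥C.P.B]
  {s : Place k κ₁ × Place k κ₂} (hs : s ∈ C.G.nodes)
  (hfin : C.FinAt (C.n₁ s.1 (C.node_fin₁ hs))) (hens : DltHens B₁.A F₁)
  (D : F₁) (hD0 : D ≠ 0) (hDhor : ∀ V ∈ t4vpHor L₁ C.x, V.valuation D = 1)
  (hD1 : C.V₁.valuation D = 1) (hD2 : C.V₂.valuation D < 1)

/-- the dictionary at a node for a unit of the first Gauss place -/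
theorem dlqf_toCross_slope_unit {z : F₁} (hz : z ∈ g₁.O) (hy : g₁.res ⟨z, hz⟩ ≠ 0) :
    (C.toCross hs hfin hens D hD0 hDhor hD1 hD2).slope z = s.1.ord (g₁.res ⟨z, hz⟩) := by
  have hz0 : z ≠ 0 := by
    rintro rfl
    exact hy (g₁.res_zero' hz)
  have e : z = z / g₁.pi ^ (0 : ℤ) := by rw [zpow_zero, div_one]
  have hn : z / g₁.pi ^ (0 : ℤ) ∈ g₁.O := e ▸ hz
  have hres : g₁.res ⟨z, hz⟩ = g₁.res ⟨_, hn⟩ := g₁.res_congr hz e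
  rw [hres]
  exact C.toCross_slope hs hfin hens D hD0 hDhor hD1 hD2 hz0 hn (hres ▸ hy)

end Unit

variable {C : DlxChart g₁ g₂ σ} {C' : DlxChart g₁' g₂' σ'} (h : DlxHom C C')
  [IsDiscreteValuationRing ↥B₁.A] [IsDiscreteValuationRing ↥B₂.A]
  [IsNoetherianRing ↥C.P.B] [IsNoetherianRing ↥C'.P.B]
  {s : Place k κ₁ × Place k κ₂} (hs : s ∈ C.G.nodes)
  (hfin : C.FinAt (C.n₁ s.1 (C.node_fin₁ hs))) (hens : DltHens B₁.A F₁)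
  (D : F₁) (hD0 : D ≠ 0) (hDhor : ∀ V ∈ t4vpHor L₁ C.x, V.valuation D = 1)
  (hD1 : C.V₁.valuation D = 1) (hD2 : C.V₂.valuation D < 1)
  {s' : Place k κ₁ × Place k κ₂} (hs' : s' ∈ C'.G.nodes)
  (hfin' : C'.FinAt (C'.n₁ s'.1 (C'.node_fin₁ hs'))) (hens' : DltHens B₂.A F₂)
  (D' : F₂) (hD0' : D' ≠ 0) (hDhor' : ∀ V ∈ t4vpHor L₂ C'.x, V.valuation D' = 1)
  (hD1' : C'.V₁.valuation D' = 1) (hD2' : C'.V₂.valuation D' < 1)

include h in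
theorem dlqf_iotaL_pi_ne_zero : h.ιL B₁.ϖ ≠ 0 := (_root_.map_ne_zero h.ιL).mpr B₁.hϖ

/-- **the slopes at the nodes do not depend on the level** -/
theorem dlqf_slope_hom (hss : s.1 = s'.1) {z : F₁} (hz : z ≠ 0) :
    (C'.toCross hs' hfin' hens' D' hD0' hDhor' hD1' hD2').slope (h.ιF z) =
      (C.toCross hs hfin hens D hD0 hDhor hD1 hD2).slope z := by
  obtain ⟨n, hn, hy⟩ := dlqf_exists_norm g₁ hz
  rw [C.toCross_slope hs hfin hens D hD0 hDhor hD1 hD2 hz hn hy]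
  have hu' : h.ιF (z / g₁.pi ^ n) ∈ g₁'.O := h.hO₁ _ hn
  have hres : g₁'.res ⟨h.ιF (z / g₁.pi ^ n), hu'⟩ = g₁.res ⟨_, hn⟩ := h.hres₁ _ hn
  have hpi0 : g₁.pi ^ n ≠ 0 := zpow_ne_zero _ g₁.pi_ne_zero
  have e : h.ιF z = h.ιF (z / g₁.pi ^ n) * algebraMap L₂ F₂ (h.ιL B₁.ϖ) ^ n := by
    rw [← h.hsq, ← map_zpow₀, ← map_mul]
    congr 1
    exact (div_mul_cancel₀ z hpi0).symm
  have hu0 : h.ιF (z / g₁.pi ^ n) ≠ 0 :=
    (_root_.map_ne_zero h.ιF).mpr (div_ne_zero hz hpi0)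
  have hc0 : algebraMap L₂ F₂ (h.ιL B₁.ϖ) ≠ 0 :=
    (_root_.map_ne_zero _).mpr (dlqf_iotaL_pi_ne_zero h)
  rw [e, DlCross.slope_mul _ hu0 (zpow_ne_zero _ hc0), DlCross.slope_zpow,
    DlCross.slope_const _ (dlqf_iotaL_pi_ne_zero h), mul_zero, add_zero,
    dlqf_toCross_slope_unit C' hs' hfin' hens' D' hD0' hDhor' hD1' hD2' hu' (hres ▸ hy), hres, hss]

end Slope

section Vert

variable {L₁ k : Type*} [Field L₁] [Field k] {B₁ : DlBase L₁ k}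
  {F₁ κ₁ κ₂ : Type*} [Field F₁] [Algebra L₁ F₁]
  [Field κ₁] [Algebra k κ₁] [Field κ₂] [Algebra k κ₂] [IsAlgClosed k]
  {g₁ : DlPlace B₁ F₁ κ₁} {g₂ : DlPlace B₁ F₁ κ₂} {σ : Type*} [Fintype σ]

/-- the data needed to form the crossings at all the nodes of a chart: (FIN-X), (HENS) and the
vertical unit -/
structure DlqfVert (C : DlxChart g₁ g₂ σ) where
  hfin : ∀ (P : Place k κ₁) (hP : 0 ≤ P.ord C.G.x.1), C.FinAt (C.n₁ P hP)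
  hens : DltHens B₁.A F₁
  /-- the vertical unit -/
  D : F₁
  hD0 : D ≠ 0
  hDhor : ∀ V ∈ t4vpHor L₁ C.x, V.valuation D = 1
  hD1 : C.V₁.valuation D = 1
  hD2 : C.V₂.valuation D < 1

namespace DlqfVert

variable {C : DlxChart g₁ g₂ σ} [IsDiscreteValuationRing ↥B₁.A] [IsNoetherianRing ↥C.P.B]
  (T : DlqfVert C) {s : Place k κ₁ × Place k κ₂} (hs : s ∈ C.G.nodes)

/-- the crossing at a node -/
noncomputable def cross : DlCross L₁ F₁ :=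
  C.toCross hs (T.hfin _ _) T.hens T.D T.hD0 T.hDhor T.hD1 T.hD2

/-- the normal form of the crossing at a node -/
noncomputable def node : DlNode L₁ F₁ := (T.cross hs).toNode

theorem node_slope (z : F₁) : (T.node hs).slope z = (T.cross hs).slope z := rfl

theorem node_W : (T.node hs).W = C.V₁ := dlqf_toNode_W _

theorem node_W' : (T.node hs).W' = C.V₂ := dlqf_toNode_W' _

theorem node_O : (T.node hs).O = B₁.A := dlqf_toNode_O _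

theorem node_ϖ : (T.node hs).ϖ = B₁.ϖ := dlqf_toNode_ϖ _

theorem node_B : (T.node hs).P.B = C.A₁ s.1 (C.node_fin₁ hs) := dlqf_toNode_B _

theorem mem_node_B {x : F₁} : x ∈ (T.node hs).P.B ↔ x ∈ C.A₁ s.1 (C.node_fin₁ hs) := by
  rw [T.node_B hs]

theorem node_pi : (T.node hs).pi = algebraMap L₁ F₁ B₁.ϖ := by
  show algebraMap L₁ F₁ (T.node hs).ϖ = _
  rw [T.node_ϖ hs]

/-- membership in the maximal ideal of the local ring of the node -/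
theorem mem_max_iff {x : F₁} (hx : x ∈ (T.node hs).P.B) :
    (⟨x, hx⟩ : ↥(T.node hs).P.B) ∈ IsLocalRing.maximalIdeal ↥(T.node hs).P.B ↔
      ¬ IsUnit (⟨x, (T.mem_node_B hs).mp hx⟩ : ↥(C.A₁ s.1 (C.node_fin₁ hs))) := by
  rw [IsLocalRing.mem_maximalIdeal, mem_nonunits_iff,
    dlqf_isUnit_iff (T.node hs).toDlLocal (T.node_B hs) hx]

theorem node_hor {V : ValuationSubring F₁} (hV : V ∈ (T.node hs).toDlLocal.hor) :
    V.valuation T.D = 1 := by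
  have h1 : V ∈ (T.cross hs).toDlLocal.hor := by
    rw [← dlqf_toNode_hor]; exact hV
  exact (T.cross hs).D_hor V h1.1 h1.2.1 h1.2.2

end DlqfVert

end Vert

section Family

variable {L₁ L₂ k : Type*} [Field L₁] [Field L₂] [Field k] {B₁ : DlBase L₁ k} {B₂ : DlBase L₂ k}
  {F₁ F₂ κ₁ κ₂ : Type*} [Field F₁] [Field F₂] [Algebra L₁ F₁] [Algebra L₂ F₂]
  [Field κ₁] [Algebra k κ₁] [Field κ₂] [Algebra k κ₂] [IsAlgClosed k]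
  {g₁ : DlPlace B₁ F₁ κ₁} {g₂ : DlPlace B₁ F₁ κ₂} {g₁' : DlPlace B₂ F₂ κ₁}
  {g₂' : DlPlace B₂ F₂ κ₂} {σ σ' : Type*} [Fintype σ] [Fintype σ']

section Root

variable (C : DlxChart g₁ g₂ σ) (P : Place k κ₁) (hP : 0 ≤ P.ord C.G.x.1)

/-- a constant lift of a root of the Artin–Schreier polynomial at a point -/
theorem dlqf_exists_root {p : ℕ} (hp : 1 < p) (η b : ↥(C.A₁ P hP)) :
    ∃ a : ↥B₁.A, C.lev₁ P hP
      ((C.P.locIncl _ (C.ofA a)) ^ p + η * C.P.locIncl _ (C.ofA a) - b) = 0 := by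
  have hdeg : (X ^ p + (Polynomial.C (C.lev₁ P hP η) * X - Polynomial.C (C.lev₁ P hP b)) :
      k[X]).degree = p := by
    rw [degree_add_eq_left_of_degree_lt, degree_X_pow]
    rw [degree_X_pow]
    refine lt_of_le_of_lt (degree_sub_le _ _) (max_lt ?_ ?_)
    · refine lt_of_le_of_lt (degree_C_mul_X_le _) ?_
      exact_mod_cast hp
    · refine lt_of_le_of_lt degree_C_le ?_
      exact_mod_cast (by omega : 0 < p)
  obtain ⟨r, hr⟩ := IsAlgClosed.exists_root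
    (X ^ p + (Polynomial.C (C.lev₁ P hP η) * X - Polynomial.C (C.lev₁ P hP b)) : k[X])
    (by rw [hdeg]; exact_mod_cast (by omega : p ≠ 0))
  obtain ⟨a, ha⟩ := B₁.resA_surj r
  refine ⟨a, ?_⟩
  rw [map_sub, map_add, map_mul, map_pow, DlxChart.lev₁_incl, DlxChart.ev₁_ofA, ha]
  have := hr
  rw [IsRoot.def, eval_add, eval_sub, eval_mul, eval_pow, eval_X, eval_C, eval_C] at this
  linear_combination this

end Root

variable {p : ℕ} {F'₁ F'₂ : Type*} [Field F'₁] [Field F'₂] [Algebra F₁ F'₁] [Algebra L₁ F'₁]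
  [IsScalarTower L₁ F₁ F'₁] [Algebra F₂ F'₂] [Algebra L₂ F'₂] [IsScalarTower L₂ F₂ F'₂]

/-- a pair of nodes (level `1`, level `2`) with the same first branch, a normal form of the Kummer
function at the node of level `1` and a constant lift of a root of its Artin–Schreier polynomial -/
structure DlqfNode (C : DlxChart g₁ g₂ σ) (C' : DlxChart g₁' g₂' σ') (Y₁ : DlyCover p F₁ F'₁)
    (η₀ : ↥B₁.A) where
  s : Place k κ₁ × Place k κ₂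
  Q' : Place k κ₂
  hs : s ∈ C.G.nodes
  hs' : (s.1, Q') ∈ C'.G.nodes
  w : F₁
  b : F₁
  hw : w ≠ 0
  hb : b ∈ C.A₁ s.1 (C.node_fin₁ hs)
  hZ : Y₁.Z = w ^ p * (1 + Y₁.ϖ ^ p * b)
  ρ : ↥B₁.A
  hρ : C.lev₁ s.1 (C.node_fin₁ hs) ((C.P.locIncl _ (C.ofA ρ)) ^ p +
    C.P.locIncl _ (C.ofA η₀) * C.P.locIncl _ (C.ofA ρ) - ⟨b, hb⟩) = 0

/-- units of the base have valuation one -/
theorem dlqf_val_eq_one (B : DlBase L₁ k) {a : ↥B.A} (ha : B.resA a ≠ 0) :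
    B.A.valuation (a : L₁) = 1 := by
  rw [← ValuationSubring.valuation_eq_one_iff]
  by_contra hnu
  exact ha ((B.resA_eq_zero_iff a).mpr hnu)

namespace DlqfNode

variable {C : DlxChart g₁ g₂ σ} {C' : DlxChart g₁' g₂' σ'} {Y₁ : DlyCover p F₁ F'₁} {η₀ : ↥B₁.A}
  [IsDiscreteValuationRing ↥B₁.A] [IsDiscreteValuationRing ↥B₂.A]
  [IsNoetherianRing ↥C.P.B] [IsNoetherianRing ↥C'.P.B]
  (n : DlqfNode C C' Y₁ η₀) (T : DlqfVert C) (T' : DlqfVert C')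
  (hϖ₁ : Y₁.ϖ = algebraMap L₁ F₁ B₁.ϖ) (hη₁ : Y₁.η = algebraMap L₁ F₁ (η₀ : L₁))
  (hη₀ : B₁.resA η₀ ≠ 0)

/-- the lift of the root, in `F₁` -/
def rho : F₁ := algebraMap L₁ F₁ (n.ρ : L₁)

theorem rho_mem : n.rho ∈ C.A₁ n.s.1 (C.node_fin₁ n.hs) := C.algebraMap_mem_A₁ _ _ n.ρ

include hη₁ in
theorem eta_mem : Y₁.η ∈ C.A₁ n.s.1 (C.node_fin₁ n.hs) := by
  rw [hη₁]; exact C.algebraMap_mem_A₁ _ _ η₀

include hη₁ in
/-- the Artin–Schreier expression at the root is not a unit -/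
theorem not_isUnit_AS : ¬ IsUnit (⟨n.rho ^ p + Y₁.η * n.rho - n.b,
    Subring.sub_mem _ (Subring.add_mem _ (Subring.pow_mem _ n.rho_mem p)
      (Subring.mul_mem _ (n.eta_mem hη₁) n.rho_mem)) n.hb⟩ : ↥(C.A₁ n.s.1 (C.node_fin₁ n.hs))) := by
  rw [DlxChart.isUnit_A₁_iff, not_not]
  have e : (⟨n.rho ^ p + Y₁.η * n.rho - n.b,
      Subring.sub_mem _ (Subring.add_mem _ (Subring.pow_mem _ n.rho_mem p)
      (Subring.mul_mem _ (n.eta_mem hη₁) n.rho_mem)) n.hb⟩ : ↥(C.A₁ n.s.1 (C.node_fin₁ n.hs))) =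
      (C.P.locIncl _ (C.ofA n.ρ)) ^ p + C.P.locIncl _ (C.ofA η₀) * C.P.locIncl _ (C.ofA n.ρ) -
        ⟨n.b, n.hb⟩ := by
    apply Subtype.ext
    show n.rho ^ p + Y₁.η * n.rho - n.b = _
    rw [hη₁]
    rfl
  rw [e]
  exact n.hρ

/-- **the input of the étale transfer at the node of level `1`** -/
noncomputable def input₁ : DltInput L₁ F₁ F'₁ :=
  (Y₁.kummer n.w n.b n.hZ n.hw).inputPi (T.node n.hs) (hϖ₁.trans (T.node_pi n.hs).symm)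
    (η₀ : L₁) hη₁ (by rw [T.node_O]; exact dlqf_val_eq_one B₁ hη₀)
    ((T.mem_node_B n.hs).mpr n.hb) n.rho ((T.mem_node_B n.hs).mpr n.rho_mem)
    ((T.mem_max_iff n.hs _).mpr (n.not_isUnit_AS hη₁))

@[simp] theorem input₁_𝒩 : (n.input₁ T hϖ₁ hη₁ hη₀).𝒩 = T.node n.hs := rfl

@[simp] theorem input₁_ρ : (n.input₁ T hϖ₁ hη₁ hη₀).ρ = n.rho := rfl

theorem input₁_u : (n.input₁ T hϖ₁ hη₁ hη₀).g.u = (Y₁.toGen n.w n.b n.hZ n.hw).u := rfl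

/-! ### the node of level `2` -/

variable (h : DlxHom C C') (Y₂ : DlyCover p F₂ F'₂) (hZ₂ : Y₂.Z = h.ιF Y₁.Z)
  (hϖ₂ : Y₂.ϖ = h.ιF Y₁.ϖ) (hη₂ : Y₂.η = h.ιF Y₁.η)

theorem hP' : 0 ≤ n.s.1.ord C'.G.x.1 := C'.node_fin₁ (s := (n.s.1, n.Q')) n.hs'

theorem map_mem {f : F₁} (hf : f ∈ C.A₁ n.s.1 (C.node_fin₁ n.hs)) :
    h.ιF f ∈ C'.A₁ n.s.1 n.hP' := h.map_A₁ n.s.1 _ hf

theorem not_isUnit_map {f : F₁} (hf : f ∈ C.A₁ n.s.1 (C.node_fin₁ n.hs))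
    (hnu : ¬ IsUnit (⟨f, hf⟩ : ↥(C.A₁ n.s.1 (C.node_fin₁ n.hs)))) {f' : F₂} (e : f' = h.ιF f)
    (hf' : f' ∈ C'.A₁ n.s.1 n.hP') :
    ¬ IsUnit (⟨f', hf'⟩ : ↥(C'.A₁ n.s.1 n.hP')) := by
  subst e
  intro hu
  exact hnu ((h.isUnit_mapA_iff n.s.1 _ ⟨f, hf⟩).mp hu)

theorem isUnit_map {f : F₁} (hf : f ∈ C.A₁ n.s.1 (C.node_fin₁ n.hs))
    (hu : IsUnit (⟨f, hf⟩ : ↥(C.A₁ n.s.1 (C.node_fin₁ n.hs)))) :
    IsUnit (⟨h.ιF f, n.map_mem h hf⟩ : ↥(C'.A₁ n.s.1 n.hP')) :=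
  h.isUnit_mapA n.s.1 _ hu

include hϖ₁ in
theorem pi_mem₁ : Y₁.ϖ ∈ C.A₁ n.s.1 (C.node_fin₁ n.hs) := by
  rw [hϖ₁]; exact C.algebraMap_mem_A₁ _ _ B₁.ϖA

include hϖ₁ in
theorem pi_not_isUnit₁ :
    ¬ IsUnit (⟨Y₁.ϖ, n.pi_mem₁ hϖ₁⟩ : ↥(C.A₁ n.s.1 (C.node_fin₁ n.hs))) := by
  rw [DlxChart.isUnit_A₁_iff, not_not]
  have e : (⟨Y₁.ϖ, n.pi_mem₁ hϖ₁⟩ : ↥(C.A₁ n.s.1 (C.node_fin₁ n.hs))) =
      C.P.locIncl _ (C.ofA B₁.ϖA) := Subtype.ext hϖ₁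
  rw [e, DlxChart.lev₁_incl, DlxChart.ev₁_ofA]
  exact B₁.res_ϖ

include hη₁ hη₀ in
theorem eta_inv_mem : Y₁.η⁻¹ ∈ C.A₁ n.s.1 (C.node_fin₁ n.hs) := by
  have h1 : ((η₀ : L₁))⁻¹ ∈ B₁.A := by
    rw [← B₁.A.valuation_le_one_iff, map_inv₀, dlqf_val_eq_one B₁ hη₀, inv_one]
  rw [hη₁, ← map_inv₀]
  exact C.algebraMap_mem_A₁ _ _ ⟨_, h1⟩

include hZ₂ hϖ₂ in
theorem hZ_map : Y₂.Z = h.ιF n.w ^ p * (1 + Y₂.ϖ ^ p * h.ιF n.b) := by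
  rw [hZ₂, n.hZ, hϖ₂, map_mul, map_add, map_one, map_mul, map_pow, map_pow]

include hϖ₁ hϖ₂ in
theorem pi_mem₂ : Y₂.ϖ ∈ C'.A₁ n.s.1 n.hP' := by
  rw [hϖ₂]; exact n.map_mem h (n.pi_mem₁ hϖ₁)

include hη₁ hη₂ in
theorem eta_mem₂ : Y₂.η ∈ C'.A₁ n.s.1 n.hP' := by
  rw [hη₂]; exact n.map_mem h (n.eta_mem hη₁)

include hη₁ hη₀ hη₂ in
theorem eta_inv_mem₂ : Y₂.η⁻¹ ∈ C'.A₁ n.s.1 n.hP' := by
  rw [hη₂, ← map_inv₀]; exact n.map_mem h (n.eta_inv_mem hη₁ hη₀)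

/-- **the input of the étale transfer at the node of level `2`** -/
noncomputable def input₂ : DltInput L₂ F₂ F'₂ :=
  (Y₂.kummer (h.ιF n.w) (h.ιF n.b) (n.hZ_map h Y₂ hZ₂ hϖ₂)
      ((_root_.map_ne_zero h.ιF).mpr n.hw)).input (T'.node n.hs')
    ((T'.mem_node_B n.hs').mpr (n.pi_mem₂ hϖ₁ h Y₂ hϖ₂))
    ((T'.mem_max_iff n.hs' _).mpr (n.not_isUnit_map h _ (n.pi_not_isUnit₁ hϖ₁) hϖ₂ _))
    ((T'.mem_node_B n.hs').mpr (n.eta_mem₂ hη₁ h Y₂ hη₂))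
    ((T'.mem_node_B n.hs').mpr (n.eta_inv_mem₂ hη₁ hη₀ h Y₂ hη₂))
    ((T'.mem_node_B n.hs').mpr (n.map_mem h n.hb)) (h.ιF n.rho)
    ((T'.mem_node_B n.hs').mpr (n.map_mem h n.rho_mem))
    ((T'.mem_max_iff n.hs' _).mpr (n.not_isUnit_map h _ (n.not_isUnit_AS hη₁)
      (by
        show h.ιF n.rho ^ p + Y₂.η * h.ιF n.rho - h.ιF n.b = _
        rw [hη₂, map_sub, map_add, map_mul, map_pow]) _))

@[simp] theorem input₂_𝒩 :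
    (n.input₂ T' hϖ₁ hη₁ hη₀ h Y₂ hZ₂ hϖ₂ hη₂).𝒩 = T'.node n.hs' := rfl

@[simp] theorem input₂_ρ : (n.input₂ T' hϖ₁ hη₁ hη₀ h Y₂ hZ₂ hϖ₂ hη₂).ρ = h.ιF n.rho := rfl

theorem input₂_u : (n.input₂ T' hϖ₁ hη₁ hη₀ h Y₂ hZ₂ hϖ₂ hη₂).g.u =
    (Y₂.toGen (h.ιF n.w) (h.ιF n.b) (n.hZ_map h Y₂ hZ₂ hϖ₂)
      ((_root_.map_ne_zero h.ιF).mpr n.hw)).u := rfl

end DlqfNode

/-! ### the family -/

section Main

variable {C : DlxChart g₁ g₂ σ} {C' : DlxChart g₁' g₂' σ'}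
  [IsDiscreteValuationRing ↥B₁.A] [IsDiscreteValuationRing ↥B₂.A]
  [IsNoetherianRing ↥C.P.B] [IsNoetherianRing ↥C'.P.B]
  (h : DlxHom C C') (T : DlqfVert C) (T' : DlqfVert C')
  (Y₁ : DlyCover p F₁ F'₁) (Y₂ : DlyCover p F₂ F'₂) (η₀ : ↥B₁.A)
  (hϖ₁ : Y₁.ϖ = algebraMap L₁ F₁ B₁.ϖ) (hη₁ : Y₁.η = algebraMap L₁ F₁ (η₀ : L₁))
  (hη₀ : B₁.resA η₀ ≠ 0)
  (ιF' : F'₁ →+* F'₂) (hsq : ∀ f : F₁, ιF' (algebraMap F₁ F'₁ f) = algebraMap F₂ F'₂ (h.ιF f))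
  (hy : ιF' Y₁.y = Y₂.y) (hϖ₂ : Y₂.ϖ = h.ιF Y₁.ϖ)
  (hens₁ : DltHens B₁.A F'₁) (hens₂ : DltHens B₂.A F'₂)

include hsq hy in
/-- the Kummer functions correspond -/
theorem dlqf_Z_map : Y₂.Z = h.ιF Y₁.Z := by
  have h1 := congrArg ιF' Y₁.hy
  rw [map_pow, hy, Y₂.hy, hsq] at h1
  exact (algebraMap F₂ F'₂).injective h1

include hϖ₂ in
/-- the units `η` correspond -/
theorem dlqf_eta_map : Y₂.η = h.ιF Y₁.η := by
  have h1 := congrArg h.ιF Y₁.hη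
  rw [map_natCast, map_mul, map_pow, ← hϖ₂, Y₂.hη] at h1
  exact mul_right_cancel₀ (pow_ne_zero _ Y₂.ϖ_ne) h1

include hϖ₁ hη₁ hη₀ hsq hy hϖ₂ hens₁ hens₂ in
/-- **the core computation for the family of all pairs of nodes with the same first branch** -/
theorem dlqf_family_node {zx : F₂} (hzx : zx ≠ 0) {r : F'₂} (hr : r ≠ 0) {z' : F'₁}
    (hz' : z' ≠ 0) (hrel : ιF' z' = algebraMap F₂ F'₂ zx * r ^ p)
    (hhor : ∀ (V : ValuationSubring F'₁) (hV : IsDiscreteValuationRing V),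
      (∀ c : L₁, algebraMap L₁ F'₁ c ∈ V) → (p : ℤ) ∣ @dlOrd _ _ V hV z')
    (e : F₁) (hh : F'₁)
    (hei : (p : ℤ) ∣ (haveI := C.P.dvr _ C.V₁_mem; dlOrd C.V₁ e))
    (hez : (p : ℤ) ∣ (haveI := C.P.dvr _ C.V₂_mem; dlOrd C.V₂ e))
    (hτz : Y₁.τ z' = algebraMap F₁ F'₁ e * hh ^ p * z') :
    ∃ γ : ℤ, ∀ n : DlqfNode C C' Y₁ η₀, (p : ℤ) ∣ (T'.cross n.hs').slope zx *
      ((haveI := C.P.dvr _ C.V₂_mem; dlOrd C.V₂ T.D) -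
        (haveI := C.P.dvr _ C.V₁_mem; dlOrd C.V₁ T.D)) - (T.cross n.hs).slope T.D * γ := by
  classical
  by_cases hne : Nonempty (DlqfNode C C' Y₁ η₀)
  swap
  · exact ⟨0, fun n => (hne ⟨n⟩).elim⟩
  obtain ⟨n₀⟩ := hne
  haveI hVi : IsDiscreteValuationRing C.V₁ := C.P.dvr _ C.V₁_mem
  haveI hVz : IsDiscreteValuationRing C.V₂ := C.P.dvr _ C.V₂_mem
  have hZ₂ := dlqf_Z_map h Y₁ Y₂ ιF' hsq hy
  have hη₂ := dlqf_eta_map h Y₁ Y₂ hϖ₂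
  have hηres₁ : g₁.res ⟨algebraMap L₁ F₁ (η₀ : L₁), g₁.algebraMap_mem η₀⟩ ≠ 0 := by
    rw [g₁.res_algebraMap]; exact (_root_.map_ne_zero _).mpr hη₀
  have hηres₂ : g₂.res ⟨algebraMap L₁ F₁ (η₀ : L₁), g₂.algebraMap_mem η₀⟩ ≠ 0 := by
    rw [g₂.res_algebraMap]; exact (_root_.map_ne_zero _).mpr hη₀
  have hϖi : C.V₁.valuation Y₁.ϖ < 1 := by rw [hϖ₁]; exact (g₁.unif _ C.hV₁).1
  have hϖz : C.V₂.valuation Y₁.ϖ < 1 := by rw [hϖ₁]; exact (g₂.unif _ C.hV₂).1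
  have hηi : C.V₁.valuation Y₁.η = 1 := by
    rw [hη₁]; exact (dlx_res_ne_zero_iff g₁ C.V₁ C.hV₁ _).mp hηres₁
  have hηz : C.V₂.valuation Y₁.η = 1 := by
    rw [hη₁]; exact (dlx_res_ne_zero_iff g₂ C.V₂ C.hV₂ _).mp hηres₂
  have hbi : n₀.b ∈ C.V₁ := (dlx_mem_iff g₁ C.V₁ C.hV₁ _).mpr (C.A₁_le₁ _ _ n₀.hb)
  have hbz : n₀.b ∈ C.V₂ := (dlx_mem_iff g₂ C.V₂ C.hV₂ _).mpr (C.A₁_le₂ n₀.hs n₀.hb)
  have hE₁ : ∀ n : DlqfNode C C' Y₁ η₀, DltHens (n.input₁ T hϖ₁ hη₁ hη₀).𝒩.O F'₁ := by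
    intro n
    rw [DlqfNode.input₁_𝒩, T.node_O]
    exact hens₁
  have hE₂ : ∀ n : DlqfNode C C' Y₁ η₀,
      DltHens (n.input₂ T' hϖ₁ hη₁ hη₀ h Y₂ hZ₂ hϖ₂ hη₂).𝒩.O F'₂ := by
    intro n
    rw [DlqfNode.input₂_𝒩, T'.node_O]
    exact hens₂
  have hA : ∀ n : DlqfNode C C' Y₁ η₀, ∀ f ∈ (n.input₁ T hϖ₁ hη₁ hη₀).𝒩.P.B,
      h.ιF f ∈ (n.input₂ T' hϖ₁ hη₁ hη₀ h Y₂ hZ₂ hϖ₂ hη₂).𝒩.P.B := fun n f hf =>
    (T'.mem_node_B n.hs').mpr (n.map_mem h ((T.mem_node_B n.hs).mp hf))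
  exact dly_core_family Y₁ C.V₁ C.V₂ n₀.w n₀.b n₀.hZ n₀.hw hϖi hηi hbi hϖz hηz hbz
    (fun n : DlqfNode C C' Y₁ η₀ => n.input₁ T hϖ₁ hη₁ hη₀)
    (fun n : DlqfNode C C' Y₁ η₀ => n.input₂ T' hϖ₁ hη₁ hη₀ h Y₂ hZ₂ hϖ₂ hη₂)
    (fun n => T.node_W n.hs) (fun n => T.node_W' n.hs) h.ιF ιF' hsq
    (fun n => dly_map_u Y₁ Y₂ h.ιF ιF' hsq hy hϖ₂.symm n.w n.b n.hZ n.hw
      (n.hZ_map h Y₂ hZ₂ hϖ₂))
    (fun n => rfl) hA
    (fun n f hu => (dlqf_isUnit_iff (T'.node n.hs').toDlLocal (T'.node_B n.hs') _).mpr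
      (n.isUnit_map h _ ((dlqf_isUnit_iff (T.node n.hs).toDlLocal (T.node_B n.hs) f.2).mp hu)))
    (fun n => by
      show (T'.node n.hs').W.comap h.ιF = (T.node n.hs).W
      rw [T'.node_W, T.node_W]
      exact h.comap_V₁)
    hE₁ hE₂
    (fun n => by
      show (T'.cross n.hs').slope (h.ιF (algebraMap L₁ F₁ (T.node n.hs).ϖ)) = 0
      rw [T.node_ϖ, h.hsq]
      exact DlCross.slope_const _ (dlqf_iotaL_pi_ne_zero h))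
    (fun n => by
      show (T'.cross n.hs').slope (h.ιF (T.node n.hs).t) = 1
      have h1 := dlqf_slope_hom h n.hs (T.hfin _ _) T.hens T.D T.hD0 T.hDhor T.hD1 T.hD2
        n.hs' (T'.hfin _ _) T'.hens T'.D T'.hD0 T'.hDhor T'.hD1 T'.hD2 rfl
        (T.node n.hs).t_ne_zero
      exact h1.trans (T.node n.hs).slope_t)
    hzx hr hz' hrel
    (fun n V hV => hhor V _ (fun c => by
      rcases eq_or_ne c 0 with rfl | hc
      · rw [map_zero]; exact V.zero_mem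
      haveI := ((n.input₁ T hϖ₁ hη₁ hη₀).node (hE₁ n)).P.dvr V hV.1
      have h3 := (dln_const ((n.input₁ T hϖ₁ hη₁ hη₀).node (hE₁ n)).toDlLocal hc).2.2 V hV
      exact dl_mem_of_ord_nonneg _ (le_of_eq h3.symm)))
    e hh hei hez hτz T.hD0 (fun n V hV => T.node_hor n.hs hV)

include hϖ₁ hη₁ hη₀ hsq hy hϖ₂ hens₁ hens₂ in
/-- **the core computation at all the nodes**: if the Kummer function `Z` of the cover has a normal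
form `Z = w ^ p (1 + ϖ ^ p b)` at every node of level `1`, then there is ONE `γ` with
`p ∣ slope₂ zx · (ord_{V₂} D − ord_{V₁} D) − slope₁ D · γ` at all pairs of nodes (level `1`,
level `2`) with the same first branch -/
theorem dlqf_family
    (hnf : ∀ (s : Place k κ₁ × Place k κ₂) (hs : s ∈ C.G.nodes), ∃ w : F₁, w ≠ 0 ∧
      ∃ b ∈ C.A₁ s.1 (C.node_fin₁ hs), Y₁.Z = w ^ p * (1 + Y₁.ϖ ^ p * b))
    {zx : F₂} (hzx : zx ≠ 0) {r : F'₂} (hr : r ≠ 0) {z' : F'₁}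
    (hz' : z' ≠ 0) (hrel : ιF' z' = algebraMap F₂ F'₂ zx * r ^ p)
    (hhor : ∀ (V : ValuationSubring F'₁) (hV : IsDiscreteValuationRing V),
      (∀ c : L₁, algebraMap L₁ F'₁ c ∈ V) → (p : ℤ) ∣ @dlOrd _ _ V hV z')
    (e : F₁) (hh : F'₁)
    (hei : (p : ℤ) ∣ (haveI := C.P.dvr _ C.V₁_mem; dlOrd C.V₁ e))
    (hez : (p : ℤ) ∣ (haveI := C.P.dvr _ C.V₂_mem; dlOrd C.V₂ e))
    (hτz : Y₁.τ z' = algebraMap F₁ F'₁ e * hh ^ p * z') :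
    ∃ γ : ℤ, ∀ (P : Place k κ₁) (Q Q' : Place k κ₂) (hs : (P, Q) ∈ C.G.nodes)
      (hs' : (P, Q') ∈ C'.G.nodes), (p : ℤ) ∣ (T'.cross hs').slope zx *
      ((haveI := C.P.dvr _ C.V₂_mem; dlOrd C.V₂ T.D) -
        (haveI := C.P.dvr _ C.V₁_mem; dlOrd C.V₁ T.D)) - (T.cross hs).slope T.D * γ := by
  obtain ⟨γ, hγ⟩ := dlqf_family_node h T T' Y₁ Y₂ η₀ hϖ₁ hη₁ hη₀ ιF' hsq hy hϖ₂ hens₁ hens₂
    hzx hr hz' hrel hhor e hh hei hez hτz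
  refine ⟨γ, fun P Q Q' hs hs' => ?_⟩
  obtain ⟨w, hw, b, hb, hZ⟩ := hnf (P, Q) hs
  have hP : 0 ≤ P.ord C.G.x.1 := C.node_fin₁ (s := (P, Q)) hs
  have hb' : b ∈ C.A₁ P hP := hb
  obtain ⟨a, ha⟩ := dlqf_exists_root C P hP Y₁.hp.one_lt
    (C.P.locIncl (C.n₁ P hP) (C.ofA η₀)) (⟨b, hb'⟩ : ↥(C.A₁ P hP))
  exact hγ (DlqfNode.mk (C := C) (C' := C') (Y₁ := Y₁) (η₀ := η₀) (P, Q) Q' hs hs' w b hw hb hZ a ha)

end Main

end Family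

end Fermat.Agent.Delta
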