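/-
DELTA / SL-CORE (helper2): **the core computation at the modular charts**.

Levels `H ≤ H₁ = dliH1 𝔓` (the tame level), charts `C₁ = dlxChart1` at `H₁`, `C = dlxChart1` at `H`.
* `dlqVert`   : the data `DlqfVert` (FIN-X, HENS, the vertical unit `dlxVertD`) of `dlxChart1`;
* `dlq_nodes` : for a cyclic cover `Y₁` of `F_{H₁}` with Kummer function `Z` (`DliKummer`), its base
  change `Y₂` to `F_H`, and `ιF' z' = zx · r ^ p`, `τ z' = e · hh ^ p · z'`: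
  ONE `γ` with `p ∣ slope_s(zx) · 12 (p − 1) − slope_s(D) · γ` at all pairs of nodes with the same
  first branch (`dlqf_family` + helper9's `dli_node_normal_form` + helper8's `dlxVertD_delta_H1`).
-/
import Fermat.Agent.Lib.Delta.Core.Fam
import Fermat.Agent.Lib.Delta.NodeX.HomInst
import Fermat.Agent.Lib.Delta.NodeX.VertOrd
import Fermat.Agent.Lib.Delta.Toric.NodeExport

set_option autoImplicit false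
set_option linter.unusedSectionVars false
set_option linter.unusedVariables false
set_option linter.style.haveILetI false
set_option synthInstance.maxHeartbeats 400000
set_option maxHeartbeats 1000000

open HahnSeries ModularCurve Fermat.Agent.T1 Fermat.Agent.T2 Fermat.Agent.T4 Fermat.Agent.TW
  Fermat.Agent.S05Lib Fermat.Agent.S24Lib IntermediateField AlgebraicCurve Fermat.Agent.Curve Module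
  Fermat.Agent.S33 Fermat.Agent.S33Q

noncomputable section

namespace Fermat.Agent.Delta

local notation "Qb" => AlgebraicClosure ℚ

attribute [local instance] t2i_dvr t2i_isAlgClosed t2i_charP t2i_fact
attribute [local instance 10000] dliAlgF dliAlgE

section Vert

variable (𝔓 : FFPlace) (H : Subgroup 𝔓.I) [H.FiniteIndex] {ϖ : ↥(tbFixO 𝔓 H)}
  (hϖ : Irreducible ϖ) (N' : ℕ) [NeZero N'] (h : ¬ 𝔓.p ∣ N') (h49 : 4 ∣ N' ∨ 9 ∣ N') {n : ℕ}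
  (su : T2Setup (t2iBase2Fix 𝔓 H N' h) (Fin n))
  (hx : su.x = t2gaX 𝔓 H N' h (𝔓.p ^ 2)) (hxb : su.xb = (s33qXi 𝔓 N', s33qXi 𝔓 N'))

/-- (FIN-X), (HENS) and the vertical unit `dlxVertD` for chart 1 at the level `H` -/
def dlqVert : DlqfVert (dlxChart1 𝔓 H hϖ N' h h49 su hx hxb) where
  hfin := dlxChart1_finAt 𝔓 H hϖ N' h h49 su hx hxb
  hens := dlx_hensH 𝔓 H hϖ N'
  D := dlxVertD 𝔓 H N'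
  hD0 := dlxVertD_ne_zero 𝔓 H N'
  hDhor := by
    intro V hV
    rw [dlxChart1_x, hx] at hV
    have hQ : 2 ≤ 𝔓.p ^ 2 := by
      have := 𝔓.hp.two_le
      nlinarith
    exact dlxVertD_hor 𝔓 H N' h hQ V hV
  hD1 := dlxVertD_val_inf 𝔓 H N'
  hD2 := dlxVertD_val_zero 𝔓 H N' h

@[simp] theorem dlqVert_D : (dlqVert 𝔓 H hϖ N' h h49 su hx hxb).D = dlxVertD 𝔓 H N' := rfl

end Vert

section Nodes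

variable (𝔓 : FFPlace) (N' : ℕ) [NeZero N'] (h : ¬ 𝔓.p ∣ N') (h49 : 4 ∣ N' ∨ 9 ∣ N')
  {H : Subgroup 𝔓.I} [H.FiniteIndex] (hle : H ≤ dliH1 𝔓)
  {ϖ : ↥(tbFixO 𝔓 H)} (hϖ : Irreducible ϖ) {n₁ n : ℕ}
  (su₁ : T2Setup (t2iBase2Fix 𝔓 (dliH1 𝔓) N' h) (Fin n₁))
  (hx₁ : su₁.x = t2gaX 𝔓 (dliH1 𝔓) N' h (𝔓.p ^ 2))
  (hxb₁ : su₁.xb = (s33qXi 𝔓 N', s33qXi 𝔓 N'))
  (su : T2Setup (t2iBase2Fix 𝔓 H N' h) (Fin n))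
  (hx : su.x = t2gaX 𝔓 H N' h (𝔓.p ^ 2)) (hxb : su.xb = (s33qXi 𝔓 N', s33qXi 𝔓 N'))
  {F'₁ F'₂ : Type} [Field F'₁] [Field F'₂]
  [Algebra ↥(tbLevF 𝔓 (N' * 𝔓.p) (dliH1 𝔓)) F'₁] [Algebra ↥(tbFix 𝔓 (dliH1 𝔓)) F'₁]
  [IsScalarTower ↥(tbFix 𝔓 (dliH1 𝔓)) ↥(tbLevF 𝔓 (N' * 𝔓.p) (dliH1 𝔓)) F'₁]
  [Algebra ↥(tbLevF 𝔓 (N' * 𝔓.p) H) F'₂] [Algebra ↥(tbFix 𝔓 H) F'₂]
  [IsScalarTower ↥(tbFix 𝔓 H) ↥(tbLevF 𝔓 (N' * 𝔓.p) H) F'₂]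
  (Y₁ : DlyCover 𝔓.p ↥(tbLevF 𝔓 (N' * 𝔓.p) (dliH1 𝔓)) F'₁)
  (Y₂ : DlyCover 𝔓.p ↥(tbLevF 𝔓 (N' * 𝔓.p) H) F'₂)
  (hϖ₁ : Y₁.ϖ = algebraMap ↥(tbFix 𝔓 (dliH1 𝔓)) ↥(tbLevF 𝔓 (N' * 𝔓.p) (dliH1 𝔓))
    ((dliPi1 𝔓 : ↥(tbFixO 𝔓 (dliH1 𝔓))) : ↥(tbFix 𝔓 (dliH1 𝔓))))
  (hη₁ : Y₁.η = algebraMap ↥(tbFix 𝔓 (dliH1 𝔓)) ↥(tbLevF 𝔓 (N' * 𝔓.p) (dliH1 𝔓))
    ((dliEta 𝔓 : ↥(tbFixO 𝔓 (dliH1 𝔓))) : ↥(tbFix 𝔓 (dliH1 𝔓))))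
  (ιF' : F'₁ →+* F'₂)
  (hsq : ∀ f : ↥(tbLevF 𝔓 (N' * 𝔓.p) (dliH1 𝔓)),
    ιF' (algebraMap ↥(tbLevF 𝔓 (N' * 𝔓.p) (dliH1 𝔓)) F'₁ f) =
      algebraMap ↥(tbLevF 𝔓 (N' * 𝔓.p) H) F'₂ (dlqlF 𝔓 hle (N' * 𝔓.p) f))
  (hy : ιF' Y₁.y = Y₂.y) (hϖ₂ : Y₂.ϖ = dlqlF 𝔓 hle (N' * 𝔓.p) Y₁.ϖ)
  {x : JZero (N' * 𝔓.p)} (hK : DliKummer 𝔓 N' h x Y₁.Z) (hodd : 𝔓.p ≠ 2)

include hϖ₁ hη₁ hsq hy hϖ₂ hK hodd in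
/-- **the core computation at the nodes of the modular charts**: ONE `γ` with
`p ∣ slope_s(zx) · 12 (p − 1) − slope_s(D) · γ` at all pairs of nodes with the same first branch -/
theorem dlq_nodes {zx : ↥(tbLevF 𝔓 (N' * 𝔓.p) H)} (hzx : zx ≠ 0) {r : F'₂} (hr : r ≠ 0)
    {z' : F'₁} (hz' : z' ≠ 0)
    (hrel : ιF' z' = algebraMap ↥(tbLevF 𝔓 (N' * 𝔓.p) H) F'₂ zx * r ^ 𝔓.p)
    (hhor : ∀ (V : ValuationSubring F'₁) (hV : IsDiscreteValuationRing V),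
      (∀ c : ↥(tbFix 𝔓 (dliH1 𝔓)), algebraMap ↥(tbFix 𝔓 (dliH1 𝔓)) F'₁ c ∈ V) →
        (𝔓.p : ℤ) ∣ @dlOrd _ _ V hV z')
    (e : ↥(tbLevF 𝔓 (N' * 𝔓.p) (dliH1 𝔓))) (hh : F'₁)
    (hei : (𝔓.p : ℤ) ∣
      (haveI := (dlxChart1 𝔓 (dliH1 𝔓) (dliPi1_irreducible 𝔓) N' h h49 su₁ hx₁ hxb₁).P.dvr _
        (dlxChart1 𝔓 (dliH1 𝔓) (dliPi1_irreducible 𝔓) N' h h49 su₁ hx₁ hxb₁).V₁_mem;
        dlOrd (dlxChart1 𝔓 (dliH1 𝔓) (dliPi1_irreducible 𝔓) N' h h49 su₁ hx₁ hxb₁).V₁ e))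
    (hez : (𝔓.p : ℤ) ∣
      (haveI := (dlxChart1 𝔓 (dliH1 𝔓) (dliPi1_irreducible 𝔓) N' h h49 su₁ hx₁ hxb₁).P.dvr _
        (dlxChart1 𝔓 (dliH1 𝔓) (dliPi1_irreducible 𝔓) N' h h49 su₁ hx₁ hxb₁).V₂_mem;
        dlOrd (dlxChart1 𝔓 (dliH1 𝔓) (dliPi1_irreducible 𝔓) N' h h49 su₁ hx₁ hxb₁).V₂ e))
    (hτz : Y₁.τ z' = algebraMap ↥(tbLevF 𝔓 (N' * 𝔓.p) (dliH1 𝔓)) F'₁ e * hh ^ 𝔓.p * z') :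
    ∃ γ : ℤ, ∀ (P : Place (IsLocalRing.ResidueField ↥𝔓.P) ↥(tbBarF 𝔓 N'))
      (Q Q' : Place (IsLocalRing.ResidueField ↥𝔓.P) ↥(tbBarF 𝔓 N'))
      (hs : (P, Q) ∈ (dlxChart1 𝔓 (dliH1 𝔓) (dliPi1_irreducible 𝔓) N' h h49 su₁ hx₁ hxb₁).G.nodes)
      (hs' : (P, Q') ∈ (dlxChart1 𝔓 H hϖ N' h h49 su hx hxb).G.nodes),
      (𝔓.p : ℤ) ∣ ((dlqVert 𝔓 H hϖ N' h h49 su hx hxb).cross hs').slope zx *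
          (12 * ((𝔓.p - 1 : ℕ) : ℤ)) -
        ((dlqVert 𝔓 (dliH1 𝔓) (dliPi1_irreducible 𝔓) N' h h49 su₁ hx₁ hxb₁).cross hs).slope
          (dlxVertD 𝔓 (dliH1 𝔓) N') * γ := by
  set C₁ := dlxChart1 𝔓 (dliH1 𝔓) (dliPi1_irreducible 𝔓) N' h h49 su₁ hx₁ hxb₁ with hC₁
  set T₁ := dlqVert 𝔓 (dliH1 𝔓) (dliPi1_irreducible 𝔓) N' h h49 su₁ hx₁ hxb₁ with hT₁
  set T := dlqVert 𝔓 H hϖ N' h h49 su hx hxb with hT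
  have hnf : ∀ (s : Place (IsLocalRing.ResidueField ↥𝔓.P) ↥(tbBarF 𝔓 N') ×
      Place (IsLocalRing.ResidueField ↥𝔓.P) ↥(tbBarF 𝔓 N')) (hs : s ∈ C₁.G.nodes),
      ∃ w : ↥(tbLevF 𝔓 (N' * 𝔓.p) (dliH1 𝔓)), w ≠ 0 ∧
        ∃ b ∈ C₁.A₁ s.1 (C₁.node_fin₁ hs), Y₁.Z = w ^ 𝔓.p * (1 + Y₁.ϖ ^ 𝔓.p * b) := by
    intro s hs
    obtain ⟨W, hW, b, hb, hZ, -, -⟩ := dli_node_normal_form 𝔓 N' h C₁ hs (T₁.hfin _ _) T₁.hens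
      T₁.D T₁.hD0 T₁.hDhor T₁.hD1 T₁.hD2 hodd hK
    refine ⟨W, hW, b, hb, ?_⟩
    rw [hZ, hϖ₁]
    rfl
  obtain ⟨γ, hγ⟩ := dlqf_family
    (dlxLevHom1 𝔓 hle (dliPi1_irreducible 𝔓) hϖ N' h h49 su₁ hx₁ hxb₁ su hx hxb) T₁ T Y₁ Y₂
    (dliEta 𝔓) hϖ₁ hη₁ (dli_res_eta_ne_zero 𝔓) ιF' hsq hy hϖ₂
    (dlxh_dltHens 𝔓 (dliH1 𝔓) F'₁) (dlxh_dltHens 𝔓 H F'₂) hnf hzx hr hz' hrel hhor e hh hei hez hτz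
  refine ⟨γ, fun P Q Q' hs hs' => ?_⟩
  have h1 := hγ P Q Q' hs hs'
  have hδ : ((haveI := C₁.P.dvr _ C₁.V₂_mem; dlOrd C₁.V₂ T₁.D) -
      (haveI := C₁.P.dvr _ C₁.V₁_mem; dlOrd C₁.V₁ T₁.D)) = 12 * ((𝔓.p - 1 : ℕ) : ℤ) :=
    @dlxVertD_delta_H1 𝔓 N' _ h (C₁.P.dvr _ C₁.V₂_mem) (C₁.P.dvr _ C₁.V₁_mem)
  rw [hδ] at h1
  exact h1

end Nodes

end Fermat.Agent.Delta
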