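/-
DELTA / SL-CORE (M2) (helper8): **from the node relations to `DlsEis`** (the case analysis over the
places of `Z_∞`).

Levels `H ≤ H₁`, charts `C₁ = dlxChart1` at `H₁`, `C = dlxChart1` at `H`, `hom : DlxHom C₁ C` with
`hom.ιF = dlqlF`, the vertical units `D₁ = dlxVertD 𝔓 H₁ N'`, `D = dlxVertD 𝔓 H N' = dlqlF D₁`.

* `dlqc_toSmooth_slope_unit` : the dictionary at a free place for a unit of the first Gauss place;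
* `dlqc_node_iff` : the first branches of the nodes of `C₁` and of `C` are the same places of `Z_∞`
  (both are the places where the residue of the vertical unit has a non-zero order);
* **`dlqc_eis`** : if `p ∣ div zx` and ONE pair `(δ, γ)`, `p ∤ δ`, satisfies
  `p ∣ slope_s(zx) · δ − slope_s(D₁) · γ` at all pairs of nodes with the same first branch, then
  `DlsEis 𝔓 N' h f Y` for `Y = Φ zx`, `f = Φ D` (with `a = γ / δ`): nodes by `dlqd_cross` +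
  `dlqf_slope_hom`, free places by `dlqd_free1` + `dlqd_vert_free1`, cusps by `dlqd_cusp`;
* `dlqc_delta_not_dvd` : `p ∤ 12 (p − 1)` for `p ≥ 5`;
* **`dlqc_eis_of_nodes`** : the conclusion of `dlq_nodes` (`Core/Main.lean`) gives `DlsEis`
  (`H₁ = dliH1 𝔓`, `hom = dlxLevHom1`, `T₁`, `T = dlqVert`, `δ = 12 (p − 1)`).
-/
import Fermat.Agent.Lib.Delta.Core.Fam
import Fermat.Agent.Lib.Delta.Core.Dict
import Fermat.Agent.Lib.Delta.Core.HorX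
import Fermat.Agent.Lib.Delta.Core.Level
import Fermat.Agent.Lib.Delta.Core.Main

set_option autoImplicit false
set_option linter.unusedSectionVars false
set_option linter.unusedVariables false
set_option linter.style.haveILetI false
set_option synthInstance.maxHeartbeats 400000
set_option maxHeartbeats 1000000

open HahnSeries ModularCurve Fermat.Agent.T1 Fermat.Agent.T2 Fermat.Agent.T4 Fermat.Agent.TW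
  Fermat.Agent.S05Lib Fermat.Agent.S24Lib AlgebraicCurve Fermat.Agent.Curve
  Fermat.Agent.S33 Fermat.Agent.S33Q

noncomputable section

namespace Fermat.Agent.Delta

local notation "Qb" => AlgebraicClosure ℚ

attribute [local instance] t2i_dvr t2i_isAlgClosed t2i_charP t2i_fact
attribute [local instance 10000] dliAlgF dliAlgE
attribute [local instance] s33g_neZero

/-! ### the dictionary at a free place for a unit -/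

section Unit

variable {L₁ k : Type*} [Field L₁] [Field k] {B₁ : DlBase L₁ k}
  {F₁ κ₁ κ₂ : Type*} [Field F₁] [Algebra L₁ F₁]
  [Field κ₁] [Algebra k κ₁] [Field κ₂] [Algebra k κ₂] [IsAlgClosed k]
  {g₁ : DlPlace B₁ F₁ κ₁} {g₂ : DlPlace B₁ F₁ κ₂} {σ : Type*} [Fintype σ]
  (C : DlxChart g₁ g₂ σ) [IsDiscreteValuationRing ↥B₁.A] [IsNoetherianRing ↥C.P.B]

/-- the dictionary at a free place for a unit of the first Gauss place -/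
theorem dlqc_toSmooth_slope_unit (P : Place k κ₁) (hP : 0 ≤ P.ord C.G.x.1)
    (hfree : ∀ Q, (P, Q) ∉ C.G.nodes) (hfin : C.FinAt (C.n₁ P hP)) (hens : DltHens B₁.A F₁)
    {z : F₁} (hz : z ∈ g₁.O) (hy : g₁.res ⟨z, hz⟩ ≠ 0) :
    (C.toSmooth P hP hfree hfin hens).slope z = P.ord (g₁.res ⟨z, hz⟩) := by
  have hz0 : z ≠ 0 := by
    rintro rfl
    exact hy (g₁.res_zero' hz)
  have e : z = z / g₁.pi ^ (0 : ℤ) := by rw [zpow_zero, div_one]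
  have hn : z / g₁.pi ^ (0 : ℤ) ∈ g₁.O := e ▸ hz
  have hres : g₁.res ⟨z, hz⟩ = g₁.res ⟨_, hn⟩ := g₁.res_congr hz e
  rw [hres]
  exact C.toSmooth_slope P hP hfree hfin hens hz0 hn (hres ▸ hy)

/-- the vertical unit of a `DlqfVert` is a unit of the first Gauss place -/
theorem dlqc_D_mem (T : DlqfVert C) : T.D ∈ g₁.O :=
  (dlx_mem_iff g₁ C.V₁ C.hV₁ T.D).mp ((C.V₁.valuation_le_one_iff _).mp T.hD1.le)

theorem dlqc_D_res_ne_zero (T : DlqfVert C) : g₁.res ⟨T.D, dlqc_D_mem C T⟩ ≠ 0 :=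
  (dlx_res_ne_zero_iff g₁ C.V₁ C.hV₁ (dlqc_D_mem C T)).mpr T.hD1

end Unit

/-! ### the case analysis -/

section Cases

variable (𝔓 : FFPlace) (N' : ℕ) [NeZero N'] (h : ¬ 𝔓.p ∣ N') (h49 : 4 ∣ N' ∨ 9 ∣ N')
  {H₁ H : Subgroup 𝔓.I} [H₁.FiniteIndex] [H.FiniteIndex] (hle : H ≤ H₁)
  {ϖ₁ : ↥(tbFixO 𝔓 H₁)} (hϖ₁ : Irreducible ϖ₁) {ϖ : ↥(tbFixO 𝔓 H)} (hϖ : Irreducible ϖ)
  {n₁ n : ℕ}
  (su₁ : T2Setup (t2iBase2Fix 𝔓 H₁ N' h) (Fin n₁))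
  (hx₁ : su₁.x = t2gaX 𝔓 H₁ N' h (𝔓.p ^ 2)) (hxb₁ : su₁.xb = (s33qXi 𝔓 N', s33qXi 𝔓 N'))
  (su : T2Setup (t2iBase2Fix 𝔓 H N' h) (Fin n))
  (hx : su.x = t2gaX 𝔓 H N' h (𝔓.p ^ 2)) (hxb : su.xb = (s33qXi 𝔓 N', s33qXi 𝔓 N'))

/-- **the first branches of the nodes do not depend on the level** (generic charts between the two
Gauss places) -/
theorem dlqc_node_iff_gen {σ₁ σ₂ : Type*} [Fintype σ₁] [Fintype σ₂]
    (C₁ : DlxChart (dliInfH 𝔓 H₁ hϖ₁ N' h) (dliZeroH 𝔓 H₁ hϖ₁ N' h) σ₁)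
    (C : DlxChart (dliInfH 𝔓 H hϖ N' h) (dliZeroH 𝔓 H hϖ N' h) σ₂)
    [IsNoetherianRing ↥C₁.P.B] [IsNoetherianRing ↥C.P.B]
    (hom : DlxHom C₁ C) (T₁ : DlqfVert C₁) (T : DlqfVert C) (hD : hom.ιF T₁.D = T.D)
    (P : Place (IsLocalRing.ResidueField ↥𝔓.P) ↥(tbBarF 𝔓 N'))
    (hP₁ : 0 ≤ P.ord C₁.G.x.1) (hP₂ : 0 ≤ P.ord C.G.x.1) :
    (∃ Q, (P, Q) ∈ C₁.G.nodes) ↔ ∃ Q', (P, Q') ∈ C.G.nodes := by
  -- the common residue of the vertical units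
  have hmem₁ := dlqc_D_mem C₁ T₁
  have hmem := dlqc_D_mem C T
  have hres : (dliInfH 𝔓 H hϖ N' h).res ⟨T.D, hmem⟩ =
      (dliInfH 𝔓 H₁ hϖ₁ N' h).res ⟨T₁.D, hmem₁⟩ := by
    rw [← hom.hres₁ T₁.D hmem₁]
    exact congrArg _ (Subtype.ext hD.symm)
  -- at a node the order of the residue is not zero; at a free place it is zero
  have node₁ : ∀ Q, (P, Q) ∈ C₁.G.nodes →
      P.ord ((dliInfH 𝔓 H₁ hϖ₁ N' h).res ⟨T₁.D, hmem₁⟩) ≠ 0 := by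
    intro Q hs
    have h1 := dlqd_D_node 𝔓 H₁ hϖ₁ N' h C₁ hs (T₁.hfin _ _) T₁.hens T₁.D T₁.hD0 T₁.hDhor
      T₁.hD1 T₁.hD2
    rwa [dlqf_toCross_slope_unit C₁ hs (T₁.hfin _ _) T₁.hens T₁.D T₁.hD0 T₁.hDhor T₁.hD1 T₁.hD2
      hmem₁ (dlqc_D_res_ne_zero C₁ T₁)] at h1
  have node₂ : ∀ Q, (P, Q) ∈ C.G.nodes →
      P.ord ((dliInfH 𝔓 H hϖ N' h).res ⟨T.D, hmem⟩) ≠ 0 := by
    intro Q hs
    have h1 := dlqd_D_node 𝔓 H hϖ N' h C hs (T.hfin _ _) T.hens T.D T.hD0 T.hDhor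
      T.hD1 T.hD2
    rwa [dlqf_toCross_slope_unit C hs (T.hfin _ _) T.hens T.D T.hD0 T.hDhor T.hD1 T.hD2
      hmem (dlqc_D_res_ne_zero C T)] at h1
  have free₁ : (∀ Q, (P, Q) ∉ C₁.G.nodes) →
      P.ord ((dliInfH 𝔓 H₁ hϖ₁ N' h).res ⟨T₁.D, hmem₁⟩) = 0 := by
    intro hfree
    have h1 := dlqd_D_free 𝔓 H₁ hϖ₁ N' h C₁ P hP₁ hfree (T₁.hfin _ _) T₁.hens T₁.D T₁.hD0 T₁.hDhor
    rwa [dlqc_toSmooth_slope_unit C₁ P hP₁ hfree (T₁.hfin _ _) T₁.hens hmem₁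
      (dlqc_D_res_ne_zero C₁ T₁)] at h1
  have free₂ : (∀ Q, (P, Q) ∉ C.G.nodes) →
      P.ord ((dliInfH 𝔓 H hϖ N' h).res ⟨T.D, hmem⟩) = 0 := by
    intro hfree
    have h1 := dlqd_D_free 𝔓 H hϖ N' h C P hP₂ hfree (T.hfin _ _) T.hens T.D T.hD0 T.hDhor
    rwa [dlqc_toSmooth_slope_unit C P hP₂ hfree (T.hfin _ _) T.hens hmem
      (dlqc_D_res_ne_zero C T)] at h1
  constructor
  · rintro ⟨Q, hs⟩
    by_contra hno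
    push Not at hno
    have h1 := free₂ hno
    rw [hres] at h1
    exact node₁ Q hs h1
  · rintro ⟨Q', hs'⟩
    by_contra hno
    push Not at hno
    have h1 := free₁ hno
    rw [← hres] at h1
    exact node₂ Q' hs' h1

/-- **the first branches of the nodes of `dlxChart1` do not depend on the level** -/
theorem dlqc_node_iff
    (hom : DlxHom (dlxChart1 𝔓 H₁ hϖ₁ N' h h49 su₁ hx₁ hxb₁) (dlxChart1 𝔓 H hϖ N' h h49 su hx hxb))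
    (T₁ : DlqfVert (dlxChart1 𝔓 H₁ hϖ₁ N' h h49 su₁ hx₁ hxb₁))
    (T : DlqfVert (dlxChart1 𝔓 H hϖ N' h h49 su hx hxb)) (hD : hom.ιF T₁.D = T.D)
    (P : Place (IsLocalRing.ResidueField ↥𝔓.P) ↥(tbBarF 𝔓 N')) (hP : DlsFin 𝔓 N' P) :
    (∃ Q, (P, Q) ∈ (dlxChart1 𝔓 H₁ hϖ₁ N' h h49 su₁ hx₁ hxb₁).G.nodes) ↔
      ∃ Q', (P, Q') ∈ (dlxChart1 𝔓 H hϖ N' h h49 su hx hxb).G.nodes :=
  dlqc_node_iff_gen 𝔓 N' h hϖ₁ hϖ _ _ hom T₁ T hD P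
    (dlqd_hP1 𝔓 H₁ hϖ₁ N' h h49 su₁ hx₁ hxb₁ P hP) (dlqd_hP1 𝔓 H hϖ N' h h49 su hx hxb P hP)

/-- `p ∤ 12 (p − 1)` for `p ≥ 5` -/
theorem dlqc_delta_not_dvd {p : ℕ} (hp : p.Prime) (hp5 : 5 ≤ p) :
    ¬ (p : ℤ) ∣ 12 * ((p - 1 : ℕ) : ℤ) := by
  intro hd
  have h1 : p ∣ 12 * (p - 1) := by exact_mod_cast hd
  rcases (Nat.Prime.dvd_mul hp).mp h1 with h2 | h2
  · have h3 := Nat.le_of_dvd (by norm_num) h2
    interval_cases p <;> first | omega | norm_num at hp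
  · have h3 := Nat.le_of_dvd (by omega) h2
    omega

/-- **(M2) the case analysis**: the node relations (ONE pair `(δ, γ)`, `p ∤ δ`) and `p ∣ div zx`
give `DlsEis` -/
theorem dlqc_eis
    (hom : DlxHom (dlxChart1 𝔓 H₁ hϖ₁ N' h h49 su₁ hx₁ hxb₁) (dlxChart1 𝔓 H hϖ N' h h49 su hx hxb))
    (hιF : hom.ιF = dlqlF 𝔓 hle (N' * 𝔓.p))
    (T₁ : DlqfVert (dlxChart1 𝔓 H₁ hϖ₁ N' h h49 su₁ hx₁ hxb₁)) (hT₁ : T₁.D = dlxVertD 𝔓 H₁ N')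
    (T : DlqfVert (dlxChart1 𝔓 H hϖ N' h h49 su hx hxb)) (hT : T.D = dlxVertD 𝔓 H N')
    (zx : ↥(tbLevF 𝔓 (N' * 𝔓.p) H)) (hzx0 : zx ≠ 0)
    (hdiv : ∀ v : Place Qb ↥(modularFunctionFieldBar (N' * 𝔓.p)),
      (𝔓.p : ℤ) ∣ v.ord (tbPhiF 𝔓 (N' * 𝔓.p) H zx))
    (Y f : (↥(modularFunctionFieldBar (N' * 𝔓.p)))ˣ)
    (hY : (Y : ↥(modularFunctionFieldBar (N' * 𝔓.p))) = tbPhiF 𝔓 (N' * 𝔓.p) H zx)
    (hf : (f : ↥(modularFunctionFieldBar (N' * 𝔓.p))) =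
      tbPhiF 𝔓 (N' * 𝔓.p) H (dlxVertD 𝔓 H N'))
    (δ γ : ℤ) (hδ : ¬ (𝔓.p : ℤ) ∣ δ)
    (hnode : ∀ (P : Place (IsLocalRing.ResidueField ↥𝔓.P) ↥(tbBarF 𝔓 N'))
      (Q Q' : Place (IsLocalRing.ResidueField ↥𝔓.P) ↥(tbBarF 𝔓 N'))
      (hs : (P, Q) ∈ (dlxChart1 𝔓 H₁ hϖ₁ N' h h49 su₁ hx₁ hxb₁).G.nodes)
      (hs' : (P, Q') ∈ (dlxChart1 𝔓 H hϖ N' h h49 su hx hxb).G.nodes),
      (𝔓.p : ℤ) ∣ (T.cross hs').slope zx * δ - (T₁.cross hs).slope T₁.D * γ) :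
    DlsEis 𝔓 N' h f Y := by
  haveI : Fact 𝔓.p.Prime := ⟨𝔓.hp⟩
  have hhor : ∀ (x : ↥(tbLevF 𝔓 (N' * 𝔓.p) H)) (V : ValuationSubring ↥(tbLevF 𝔓 (N' * 𝔓.p) H))
      (hV : V ∈ t4vpHor ↥(tbFix 𝔓 H) x) [IsDiscreteValuationRing ↥V], (𝔓.p : ℤ) ∣ dlOrd V zx :=
    fun x V hV _ => dlqh_hor_dvd 𝔓 H (N' * 𝔓.p) zx hzx0 hdiv x V hV
  have hD : hom.ιF T₁.D = T.D := by rw [hιF, hT₁, hT, dlqlF_D]
  have hδ0 : ((δ : ℤ) : ZMod 𝔓.p) ≠ 0 := by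
    rwa [Ne, ZMod.intCast_zmod_eq_zero_iff_dvd]
  refine ⟨(γ : ZMod 𝔓.p) * ((δ : ℤ) : ZMod 𝔓.p)⁻¹, ?_, ?_⟩
  · intro P hP
    by_cases hn : ∃ Q', (P, Q') ∈ (dlxChart1 𝔓 H hϖ N' h h49 su hx hxb).G.nodes
    · -- a node at both levels
      obtain ⟨Q', hs'⟩ := hn
      obtain ⟨Q, hs⟩ := (dlqc_node_iff 𝔓 N' h h49 hϖ₁ hϖ su₁ hx₁ hxb₁ su hx hxb hom T₁ T hD P hP).mpr
        ⟨Q', hs'⟩
      have h1 : dlsSlope 𝔓 N' h Y P = (((T.cross hs').slope zx : ℤ) : ZMod 𝔓.p) :=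
        dlqd_cross 𝔓 H hϖ N' h (dlxChart1 𝔓 H hϖ N' h h49 su hx hxb) hs' (T.hfin _ _) T.hens T.D
          T.hD0 T.hDhor T.hD1 T.hD2 zx hzx0 Y hY
      have hf' : (f : ↥(modularFunctionFieldBar (N' * 𝔓.p))) = tbPhiF 𝔓 (N' * 𝔓.p) H T.D := by
        rw [hT]
        exact hf
      have h2 : dlsSlope 𝔓 N' h f P = (((T.cross hs').slope T.D : ℤ) : ZMod 𝔓.p) :=
        dlqd_cross 𝔓 H hϖ N' h (dlxChart1 𝔓 H hϖ N' h h49 su hx hxb) hs' (T.hfin _ _)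
          T.hens T.D T.hD0 T.hDhor T.hD1 T.hD2 T.D T.hD0 f hf'
      have h4 : (T.cross hs').slope T.D = (T₁.cross hs).slope T₁.D := by
        rw [← hD]
        exact dlqf_slope_hom hom hs (T₁.hfin _ _) T₁.hens T₁.D T₁.hD0 T₁.hDhor T₁.hD1 T₁.hD2 hs'
          (T.hfin _ _) T.hens T.D T.hD0 T.hDhor T.hD1 T.hD2 rfl T₁.hD0
      have h5 := hnode P Q Q' hs hs'
      rw [← ZMod.intCast_zmod_eq_zero_iff_dvd, Int.cast_sub, Int.cast_mul, Int.cast_mul,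
        sub_eq_zero] at h5
      rw [h1, h2, h4]
      field_simp
      rw [h5, mul_comm]
    · -- a free place at both levels
      have hn₁ : ¬ ∃ Q, (P, Q) ∈ (dlxChart1 𝔓 H₁ hϖ₁ N' h h49 su₁ hx₁ hxb₁).G.nodes := fun h1 =>
        hn ((dlqc_node_iff 𝔓 N' h h49 hϖ₁ hϖ su₁ hx₁ hxb₁ su hx hxb hom T₁ T hD P hP).mp h1)
      push Not at hn
      rw [dlqd_free1 𝔓 H hϖ N' h h49 su hx hxb P hP hn zx hzx0 Y hY hhor,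
        dlqd_vert_free1 𝔓 H hϖ N' h h49 su hx hxb P hP hn f hf, mul_zero]
  · intro P hP
    exact dlqd_cusp 𝔓 H hϖ N' h h49 su hx hxb P hP zx hzx0 Y hY hhor

end Cases

section Main

variable (𝔓 : FFPlace) (N' : ℕ) [NeZero N'] (h : ¬ 𝔓.p ∣ N') (h49 : 4 ∣ N' ∨ 9 ∣ N')
  {H : Subgroup 𝔓.I} [H.FiniteIndex] (hle : H ≤ dliH1 𝔓)
  {ϖ : ↥(tbFixO 𝔓 H)} (hϖ : Irreducible ϖ) {n₁ n : ℕ}
  (su₁ : T2Setup (t2iBase2Fix 𝔓 (dliH1 𝔓) N' h) (Fin n₁))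
  (hx₁ : su₁.x = t2gaX 𝔓 (dliH1 𝔓) N' h (𝔓.p ^ 2))
  (hxb₁ : su₁.xb = (s33qXi 𝔓 N', s33qXi 𝔓 N'))
  (su : T2Setup (t2iBase2Fix 𝔓 H N' h) (Fin n))
  (hx : su.x = t2gaX 𝔓 H N' h (𝔓.p ^ 2)) (hxb : su.xb = (s33qXi 𝔓 N', s33qXi 𝔓 N'))

include hle in
/-- **the conclusion of `dlq_nodes` gives `DlsEis`** (`p ≥ 5`) -/
theorem dlqc_eis_of_nodes (hp5 : 5 ≤ 𝔓.p)
    (zx : ↥(tbLevF 𝔓 (N' * 𝔓.p) H)) (hzx0 : zx ≠ 0)
    (hdiv : ∀ v : Place Qb ↥(modularFunctionFieldBar (N' * 𝔓.p)),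
      (𝔓.p : ℤ) ∣ v.ord (tbPhiF 𝔓 (N' * 𝔓.p) H zx))
    (Y f : (↥(modularFunctionFieldBar (N' * 𝔓.p)))ˣ)
    (hY : (Y : ↥(modularFunctionFieldBar (N' * 𝔓.p))) = tbPhiF 𝔓 (N' * 𝔓.p) H zx)
    (hf : (f : ↥(modularFunctionFieldBar (N' * 𝔓.p))) =
      tbPhiF 𝔓 (N' * 𝔓.p) H (dlxVertD 𝔓 H N'))
    (hγ : ∃ γ : ℤ, ∀ (P : Place (IsLocalRing.ResidueField ↥𝔓.P) ↥(tbBarF 𝔓 N'))
      (Q Q' : Place (IsLocalRing.ResidueField ↥𝔓.P) ↥(tbBarF 𝔓 N'))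
      (hs : (P, Q) ∈ (dlxChart1 𝔓 (dliH1 𝔓) (dliPi1_irreducible 𝔓) N' h h49 su₁ hx₁ hxb₁).G.nodes)
      (hs' : (P, Q') ∈ (dlxChart1 𝔓 H hϖ N' h h49 su hx hxb).G.nodes),
      (𝔓.p : ℤ) ∣ ((dlqVert 𝔓 H hϖ N' h h49 su hx hxb).cross hs').slope zx *
          (12 * ((𝔓.p - 1 : ℕ) : ℤ)) -
        ((dlqVert 𝔓 (dliH1 𝔓) (dliPi1_irreducible 𝔓) N' h h49 su₁ hx₁ hxb₁).cross hs).slope
          (dlxVertD 𝔓 (dliH1 𝔓) N') * γ) :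
    DlsEis 𝔓 N' h f Y := by
  obtain ⟨γ, hγ⟩ := hγ
  exact dlqc_eis 𝔓 N' h h49 hle (dliPi1_irreducible 𝔓) hϖ su₁ hx₁ hxb₁ su hx hxb
    (dlxLevHom1 𝔓 hle (dliPi1_irreducible 𝔓) hϖ N' h h49 su₁ hx₁ hxb₁ su hx hxb) rfl
    (dlqVert 𝔓 (dliH1 𝔓) (dliPi1_irreducible 𝔓) N' h h49 su₁ hx₁ hxb₁) rfl
    (dlqVert 𝔓 H hϖ N' h h49 su hx hxb) rfl zx hzx0 hdiv Y f hY hf
    (12 * ((𝔓.p - 1 : ℕ) : ℤ)) γ (dlqc_delta_not_dvd 𝔓.hp hp5) hγ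

end Main

end Fermat.Agent.Delta
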