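/-
DELTA / CORE (HO-3) (helper1): **horizontal orders at the level `H`**.

* `dlqh_place_of_dvr` : a discrete valuation subring of `F` containing the constants `K` is the valuation
  ring of a `Place K F`;
* `dlqh_dvr_dvd`      : if `p ∣ ord_P (Φ z)` at all places `P` of `F_{ℚ̄}(N)`, then `p ∣ ord_U z` at EVERY
  discrete valuation subring `U ⊇ L_H` of `F_H(N)` (helper9's `dli_hor_dvd` without the chart);
* `dlqh_hor_dvd`      : the same at the horizontal valuation rings of a chart (helper2's literal shape).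
-/
import Fermat.Agent.Lib.Delta.Toric.NodeInst

set_option autoImplicit false
set_option linter.unusedSectionVars false
set_option linter.unusedVariables false
set_option linter.style.haveILetI false
set_option synthInstance.maxHeartbeats 400000

open HahnSeries ModularCurve AlgebraicCurve Fermat.Agent.T1 Fermat.Agent.T2 Fermat.Agent.TW
  Fermat.Agent.T4

noncomputable section

namespace Fermat.Agent.Delta

local notation "Qb" => AlgebraicClosure ℚ

/-- a discrete valuation subring containing the constants is the valuation ring of a place -/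
theorem dlqh_place_of_dvr {K F : Type*} [Field K] [Field F] [Algebra K F] (V : ValuationSubring F)
    [IsDiscreteValuationRing ↥V] (hK : ∀ a : K, algebraMap K F a ∈ V) :
    ∃ v : Place K F, v.toValuationSubring = V := by
  refine ⟨⟨V, hK, ?_, inferInstance⟩, rfl⟩
  intro htop
  have hf : IsField ↥V := by
    refine ⟨⟨0, 1, zero_ne_one⟩, mul_comm, ?_⟩
    intro a ha
    have ha' : (a : F) ≠ 0 := fun h => ha (Subtype.ext h)
    have hmem : (a : F)⁻¹ ∈ V := by
      have h1 : (a : F)⁻¹ ∈ (⊤ : ValuationSubring F) := ValuationSubring.mem_top _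
      rwa [← htop] at h1
    refine ⟨⟨(a : F)⁻¹, hmem⟩, Subtype.ext ?_⟩
    show (a : F) * (a : F)⁻¹ = 1
    exact mul_inv_cancel₀ ha'
  exact IsDiscreteValuationRing.not_isField ↥V hf

variable (𝔓 : FFPlace) (H : Subgroup 𝔓.I) (N : ℕ) [NeZero N]

/-- divisibility of the divisor over `ℚ̄` gives divisibility of the orders at every discrete valuation
subring of `F_H(N)` containing the constants `L_H` -/
theorem dlqh_dvr_dvd (U : ValuationSubring ↥(tbLevF 𝔓 N H)) [IsDiscreteValuationRing ↥U]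
    (hU : ∀ a : ↥(tbFix 𝔓 H), algebraMap ↥(tbFix 𝔓 H) ↥(tbLevF 𝔓 N H) a ∈ U) {p : ℕ}
    (z : ↥(tbLevF 𝔓 N H))
    (hdiv : ∀ P : Place Qb ↥(modularFunctionFieldBar N), (p : ℤ) ∣ P.ord (tbPhiF 𝔓 N H z)) :
    (p : ℤ) ∣ dlOrd U z := by
  obtain ⟨v, hv⟩ := dlqh_place_of_dvr (K := ↥(tbFix 𝔓 H)) U hU
  subst hv
  obtain ⟨P, hP⟩ := t4ru_cfe_fix 𝔓 H N v
  have h1 : dlOrd v.toValuationSubring z = v.ord z := rfl
  rw [h1, ← hP]
  exact hdiv P

/-- (HOR-X), helper2's literal shape -/
theorem dlqh_hor_dvd (z : ↥(tbLevF 𝔓 N H)) (hz : z ≠ 0)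
    (hdiv : ∀ v : Place Qb ↥(modularFunctionFieldBar N), (𝔓.p : ℤ) ∣ v.ord (tbPhiF 𝔓 N H z))
    (x : ↥(tbLevF 𝔓 N H)) (V : ValuationSubring ↥(tbLevF 𝔓 N H))
    (hV : V ∈ t4vpHor ↥(tbFix 𝔓 H) x) [IsDiscreteValuationRing ↥V] :
    (𝔓.p : ℤ) ∣ dlOrd V z :=
  dli_hor_dvd 𝔓 H N V hV z hdiv

end Fermat.Agent.Delta
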