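/-
DELTA / CORE (helper8): **small lemmas for the instantiation of `dlqf_family` at the model
`DlyRoot p Z` of the cyclic cover** (helper2's list (i)–(iv), msg 1416).

* (i) `dlqi_irr_base`, `dlqi_irr_level` : `X ^ p - C Z` and `X ^ p - C (dlqlF Z)` are irreducible when
  the `q`-expansion of `Z` over `ℚ̄` is not a `p`-th power; `dlqi_npow_level`;
* (ii) `dlqi_tau_eq` (any `DlyCover`), `dlqi_tau_rootCover` : a ring endomorphism `τ₁` of `DlyRoot p Z`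
  fixing `F` with `τ₁ root = ζ · root` IS the `τ` of `dlyRootCover … ζ …`;
* (iii) `dlqi_isScalarTower`, `dlqi_algebraMap_root` : the Mathlib instances on `AdjoinRoot` form a
  scalar tower `L_H → F_H(N) → DlyRoot p Z` (this is the pair used by `dlqf_family`);
  `dlqi_hhor` : the hypothesis `hhor` of `dlqf_family` from `dlxc_hor_level`;
* (iv) `dlqi_ord_const₁/₂` : constants of valuation one have order `0` along the two vertical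
  valuation rings of any chart; `dlqi_hei`, `dlqi_hez` : the hypotheses `hei`, `hez` of `dlqf_family`
  for `e = (algebraMap u ^ n)⁻¹`; the same at `dlxChart1` (`dlqi_hei1`, `dlqi_hez1`);
* extras: the two covers `dlqiCover1` (tame level, `ϖ = ϖ₁`, `η = dliEta`, any primitive `ζ₁`) and
  `dlqiCover2` (level `H ≤ H₁`, the images under `dlqlF`) with their `rfl` lemmas, and
  `dlqiCover_hϖ₂`, `dlqiCover_hsq`, `dlqiCover_hy`.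
-/
import Fermat.Agent.Lib.Delta.Core.Fam
import Fermat.Agent.Lib.Delta.NodeX.HomInst
import Fermat.Agent.Lib.Delta.NodeX.HorLevel
import Fermat.Agent.Lib.Delta.Toric.Tame

set_option autoImplicit false
set_option linter.unusedSectionVars false
set_option linter.unusedVariables false
set_option linter.style.haveILetI false
set_option synthInstance.maxHeartbeats 400000
set_option maxHeartbeats 1000000

open HahnSeries ModularCurve Fermat.Agent.T1 Fermat.Agent.T2 Fermat.Agent.T4 Fermat.Agent.TW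
  Fermat.Agent.S05Lib Fermat.Agent.S24Lib IntermediateField AlgebraicCurve Fermat.Agent.Curve Module
  Fermat.Agent.S33 Fermat.Agent.S33Q Polynomial

noncomputable section

namespace Fermat.Agent.Delta

local notation "Qb" => AlgebraicClosure ℚ

attribute [local instance] t2i_dvr t2i_isAlgClosed t2i_charP t2i_fact
attribute [local instance 10000] dliAlgF dliAlgE

/-! ### (ii) uniqueness of `τ` -/

section Tau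

variable {p : ℕ} {F F' : Type*} [Field F] [Field F'] [Algebra F F']

/-- a ring endomorphism of the cover fixing the base and acting on the Kummer generator as `τ` does
is `τ` -/
theorem dlqi_tau_eq (Y : DlyCover p F F') (τ₁ : F' →+* F')
    (hτof : ∀ f : F, τ₁ (algebraMap F F' f) = algebraMap F F' f)
    (hτy : τ₁ Y.y = algebraMap F F' Y.ζ * Y.y) (z : F') : τ₁ z = Y.τ z := by
  obtain ⟨T, rfl⟩ := Y.gen z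
  have h1 : τ₁ (aeval Y.y T) = aeval (τ₁ Y.y) T := by
    rw [aeval_def, aeval_def, hom_eval₂]
    congr 1
    exact RingHom.ext hτof
  rw [h1, hτy, ← Y.hτ, aeval_algHom_apply]

/-- helper4's shape: `τ₁` on the model `DlyRoot p Z` is the `τ` of `dlyRootCover` -/
theorem dlqi_tau_rootCover (Z : F) [Fact (Irreducible (X ^ p - Polynomial.C Z : F[X]))] (hp : p.Prime)
    (ϖ η ζ : F) (ϖ_ne : ϖ ≠ 0) (η_ne : η ≠ 0) (hη : (p : F) = η * ϖ ^ (p - 1))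
    (hζ : IsPrimitiveRoot ζ p) (τ₁ : DlyRoot p Z →+* DlyRoot p Z)
    (hτof : ∀ f : F, τ₁ (algebraMap F (DlyRoot p Z) f) = algebraMap F (DlyRoot p Z) f)
    (hτroot : τ₁ (AdjoinRoot.root _) = algebraMap F (DlyRoot p Z) ζ * AdjoinRoot.root _)
    (z : DlyRoot p Z) : τ₁ z = (dlyRootCover p Z hp ϖ η ζ ϖ_ne η_ne hη hζ).τ z :=
  dlqi_tau_eq (dlyRootCover p Z hp ϖ η ζ ϖ_ne η_ne hη hζ) τ₁ hτof hτroot z

end Tau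

/-! ### (iv) constants of valuation one along the vertical valuation rings of a chart -/

section Const

variable {L k : Type*} [Field L] [Field k] {B : DlBase L k} {F κ₁ κ₂ : Type*} [Field F]
  [Algebra L F] [Field κ₁] [Algebra k κ₁] [Field κ₂] [Algebra k κ₂]
  {g₁ : DlPlace B F κ₁} {g₂ : DlPlace B F κ₂} {σ : Type*} [Fintype σ] (C : DlxChart g₁ g₂ σ)

theorem dlqi_val_const₁ {c : L} (hc : B.A.valuation c = 1) :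
    C.V₁.valuation (algebraMap L F c) = 1 := by
  have hc0 : c ≠ 0 := by
    rintro rfl
    rw [map_zero] at hc
    exact zero_ne_one hc
  have h1 : c ∈ B.A := (B.A.valuation_le_one_iff c).mp hc.le
  have h2 : c⁻¹ ∈ B.A := (B.A.valuation_le_one_iff _).mp (by rw [map_inv₀, hc, inv_one])
  have h3 : algebraMap L F c ∈ C.V₁ := (dlx_mem_iff g₁ _ C.hV₁ _).mpr (g₁.algebraMap_mem ⟨c, h1⟩)
  have h4 : algebraMap L F c⁻¹ ∈ C.V₁ :=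
    (dlx_mem_iff g₁ _ C.hV₁ _).mpr (g₁.algebraMap_mem ⟨c⁻¹, h2⟩)
  have h5 := (C.V₁.valuation_le_one_iff _).mpr h3
  have h6 := (C.V₁.valuation_le_one_iff _).mpr h4
  have h0 : C.V₁.valuation (algebraMap L F c) ≠ 0 :=
    (_root_.map_ne_zero _).mpr ((_root_.map_ne_zero _).mpr hc0)
  rw [map_inv₀, map_inv₀, inv_le_one₀ (zero_lt_iff.mpr h0)] at h6
  exact le_antisymm h5 h6

theorem dlqi_val_const₂ {c : L} (hc : B.A.valuation c = 1) :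
    C.V₂.valuation (algebraMap L F c) = 1 := by
  have hc0 : c ≠ 0 := by
    rintro rfl
    rw [map_zero] at hc
    exact zero_ne_one hc
  have h1 : c ∈ B.A := (B.A.valuation_le_one_iff c).mp hc.le
  have h2 : c⁻¹ ∈ B.A := (B.A.valuation_le_one_iff _).mp (by rw [map_inv₀, hc, inv_one])
  have h3 : algebraMap L F c ∈ C.V₂ := (dlx_mem_iff g₂ _ C.hV₂ _).mpr (g₂.algebraMap_mem ⟨c, h1⟩)
  have h4 : algebraMap L F c⁻¹ ∈ C.V₂ :=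
    (dlx_mem_iff g₂ _ C.hV₂ _).mpr (g₂.algebraMap_mem ⟨c⁻¹, h2⟩)
  have h5 := (C.V₂.valuation_le_one_iff _).mpr h3
  have h6 := (C.V₂.valuation_le_one_iff _).mpr h4
  have h0 : C.V₂.valuation (algebraMap L F c) ≠ 0 :=
    (_root_.map_ne_zero _).mpr ((_root_.map_ne_zero _).mpr hc0)
  rw [map_inv₀, map_inv₀, inv_le_one₀ (zero_lt_iff.mpr h0)] at h6
  exact le_antisymm h5 h6

theorem dlqi_const_ne_zero {c : L} (hc : B.A.valuation c = 1) : algebraMap L F c ≠ 0 := by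
  have hc0 : c ≠ 0 := by
    rintro rfl
    rw [map_zero] at hc
    exact zero_ne_one hc
  exact (_root_.map_ne_zero _).mpr hc0

/-- constants of valuation one have order `0` along `V₁` -/
theorem dlqi_ord_const₁ {c : L} (hc : B.A.valuation c = 1) :
    (haveI := C.P.dvr _ C.V₁_mem; dlOrd C.V₁ (algebraMap L F c)) = 0 := by
  haveI := C.P.dvr _ C.V₁_mem
  exact (dl_valuation_eq_one_iff C.V₁ (dlqi_const_ne_zero hc)).mp (dlqi_val_const₁ C hc)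

/-- constants of valuation one have order `0` along `V₂` -/
theorem dlqi_ord_const₂ {c : L} (hc : B.A.valuation c = 1) :
    (haveI := C.P.dvr _ C.V₂_mem; dlOrd C.V₂ (algebraMap L F c)) = 0 := by
  haveI := C.P.dvr _ C.V₂_mem
  exact (dl_valuation_eq_one_iff C.V₂ (dlqi_const_ne_zero hc)).mp (dlqi_val_const₂ C hc)

/-- the hypothesis `hei` of `dlqf_family` for `e = (algebraMap u ^ n)⁻¹` -/
theorem dlqi_hei {c : L} (hc : B.A.valuation c = 1) (n : ℕ) (p : ℤ) :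
    p ∣ (haveI := C.P.dvr _ C.V₁_mem; dlOrd C.V₁ ((algebraMap L F c ^ n)⁻¹)) := by
  haveI := C.P.dvr _ C.V₁_mem
  rw [dlOrd_inv, dlOrd_pow, dlqi_ord_const₁ C hc, mul_zero, neg_zero]
  exact dvd_zero _

/-- the hypothesis `hez` of `dlqf_family` for `e = (algebraMap u ^ n)⁻¹` -/
theorem dlqi_hez {c : L} (hc : B.A.valuation c = 1) (n : ℕ) (p : ℤ) :
    p ∣ (haveI := C.P.dvr _ C.V₂_mem; dlOrd C.V₂ ((algebraMap L F c ^ n)⁻¹)) := by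
  haveI := C.P.dvr _ C.V₂_mem
  rw [dlOrd_inv, dlOrd_pow, dlqi_ord_const₂ C hc, mul_zero, neg_zero]
  exact dvd_zero _

end Const

/-! ### (i) irreducibility of the Kummer polynomials at the two levels -/

section Irr

variable (𝔓 : FFPlace) (N : ℕ) [NeZero N] {H₁ H : Subgroup 𝔓.I} (hle : H ≤ H₁)

/-- `Z` is not a `p`-th power at the level `H₁` -/
theorem dlqi_npow_base {p : ℕ} (Z : ↥(tbLevF 𝔓 N H₁))
    (hnp : ∀ c : ↥(modularFunctionFieldBar N), c ^ p ≠ tbPhiF 𝔓 N H₁ Z) :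
    ∀ c : ↥(tbLevF 𝔓 N H₁), c ^ p ≠ Z := by
  intro c hc
  refine hnp (tbPhiF 𝔓 N H₁ c) ?_
  rw [← map_pow, hc]

/-- `dlqlF Z` is not a `p`-th power at the level `H` -/
theorem dlqi_npow_level {p : ℕ} (Z : ↥(tbLevF 𝔓 N H₁))
    (hnp : ∀ c : ↥(modularFunctionFieldBar N), c ^ p ≠ tbPhiF 𝔓 N H₁ Z) :
    ∀ c : ↥(tbLevF 𝔓 N H), c ^ p ≠ dlqlF 𝔓 hle N Z := by
  intro c hc
  refine hnp (tbPhiF 𝔓 N H c) ?_
  rw [← map_pow, hc, tbPhiF_dlqlF]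

/-- **(i) at the level `H₁`** -/
theorem dlqi_irr_base {p : ℕ} (hp : p.Prime) (Z : ↥(tbLevF 𝔓 N H₁))
    (hnp : ∀ c : ↥(modularFunctionFieldBar N), c ^ p ≠ tbPhiF 𝔓 N H₁ Z) :
    Irreducible (X ^ p - Polynomial.C Z : (↥(tbLevF 𝔓 N H₁))[X]) :=
  dly_irreducible_of_npow hp (dlqi_npow_base 𝔓 N Z hnp)

/-- **(i) at the level `H ≤ H₁`** -/
theorem dlqi_irr_level {p : ℕ} (hp : p.Prime) (Z : ↥(tbLevF 𝔓 N H₁))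
    (hnp : ∀ c : ↥(modularFunctionFieldBar N), c ^ p ≠ tbPhiF 𝔓 N H₁ Z) :
    Irreducible (X ^ p - Polynomial.C (dlqlF 𝔓 hle N Z) : (↥(tbLevF 𝔓 N H))[X]) :=
  dly_irreducible_of_npow hp (dlqi_npow_level 𝔓 N hle Z hnp)

end Irr

/-! ### (iii) the scalar tower `L_H → F_H(N) → DlyRoot p Z` and `hhor` -/

section Tower

variable (𝔓 : FFPlace) (N : ℕ) [NeZero N] {H₁ H : Subgroup 𝔓.I}

/-- **(iii)** the Mathlib instances on `AdjoinRoot` form a scalar tower (found by `inferInstance`;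
this is the pair of instances with which `dlqf_family` elaborates at `F'₁ = DlyRoot p Z`) -/
theorem dlqi_isScalarTower (p : ℕ) (Z : ↥(tbLevF 𝔓 N H)) :
    IsScalarTower ↥(tbFix 𝔓 H) ↥(tbLevF 𝔓 N H) (DlyRoot p Z) := inferInstance

theorem dlqi_algebraMap_root (p : ℕ) (Z : ↥(tbLevF 𝔓 N H)) (c : ↥(tbFix 𝔓 H)) :
    algebraMap ↥(tbFix 𝔓 H) (DlyRoot p Z) c =
      algebraMap ↥(tbLevF 𝔓 N H) (DlyRoot p Z) (algebraMap ↥(tbFix 𝔓 H) ↥(tbLevF 𝔓 N H) c) :=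
  IsScalarTower.algebraMap_apply _ _ _ c

/-- **the hypothesis `hhor` of `dlqf_family`** (literal binder) from `dlxc_hor_level` -/
theorem dlqi_hhor (hle : H ≤ H₁) {p : ℕ} (hp : p.Prime) (Z : ↥(tbLevF 𝔓 N H₁))
    (hnp : ∀ c : ↥(modularFunctionFieldBar N), c ^ p ≠ tbPhiF 𝔓 N H₁ Z)
    [Fact (Irreducible (X ^ p - Polynomial.C Z : (↥(tbLevF 𝔓 N H₁))[X]))]
    {z' : DlyRoot p Z} {zx : ↥(tbLevF 𝔓 N H)} {r : DlyRoot p (dlqlF 𝔓 hle N Z)}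
    (hrel : dlyRootMap p (dlqlF 𝔓 hle N) Z z' =
      algebraMap ↥(tbLevF 𝔓 N H) (DlyRoot p (dlqlF 𝔓 hle N Z)) zx * r ^ p)
    (hzx : ∀ P : Place Qb ↥(modularFunctionFieldBar N), (p : ℤ) ∣ P.ord (tbPhiF 𝔓 N H zx)) :
    ∀ (V : ValuationSubring (DlyRoot p Z)) (hV : IsDiscreteValuationRing V),
      (∀ c : ↥(tbFix 𝔓 H₁), algebraMap ↥(tbFix 𝔓 H₁) (DlyRoot p Z) c ∈ V) →
      (p : ℤ) ∣ @dlOrd _ _ V hV z' := by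
  intro V hV hL
  haveI := hV
  refine dlxc_hor_level 𝔓 N (dlqlF 𝔓 hle N) (tbPhiF_dlqlF 𝔓 hle N) hp Z hnp V (fun c => ?_) hrel hzx
  rw [← dlqi_algebraMap_root]
  exact hL c

end Tower

/-! ### (iv) at the chart `dlxChart1` -/

section Chart1

variable (𝔓 : FFPlace) (H : Subgroup 𝔓.I) [H.FiniteIndex] {ϖ : ↥(tbFixO 𝔓 H)}
  (hϖ : Irreducible ϖ) (N' : ℕ) [NeZero N'] (h : ¬ 𝔓.p ∣ N') (h49 : 4 ∣ N' ∨ 9 ∣ N') {n : ℕ}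
  (su : T2Setup (t2iBase2Fix 𝔓 H N' h) (Fin n))
  (hx : su.x = t2gaX 𝔓 H N' h (𝔓.p ^ 2)) (hxb : su.xb = (s33qXi 𝔓 N', s33qXi 𝔓 N'))

/-- **(iv), `hei` at `dlxChart1`** for `e = (algebraMap u ^ m)⁻¹`, `u` a unit of `tbFixO 𝔓 H` -/
theorem dlqi_hei1 {u : ↥(tbFix 𝔓 H)} (hu : (tbFixO 𝔓 H).valuation u = 1) (m : ℕ) (p : ℤ) :
    p ∣ (haveI := (dlxChart1 𝔓 H hϖ N' h h49 su hx hxb).P.dvr _
          (dlxChart1 𝔓 H hϖ N' h h49 su hx hxb).V₁_mem;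
      dlOrd (dlxChart1 𝔓 H hϖ N' h h49 su hx hxb).V₁
        ((algebraMap ↥(tbFix 𝔓 H) ↥(tbLevF 𝔓 (N' * 𝔓.p) H) u ^ m)⁻¹)) :=
  dlqi_hei (dlxChart1 𝔓 H hϖ N' h h49 su hx hxb) hu m p

/-- **(iv), `hez` at `dlxChart1`** -/
theorem dlqi_hez1 {u : ↥(tbFix 𝔓 H)} (hu : (tbFixO 𝔓 H).valuation u = 1) (m : ℕ) (p : ℤ) :
    p ∣ (haveI := (dlxChart1 𝔓 H hϖ N' h h49 su hx hxb).P.dvr _
          (dlxChart1 𝔓 H hϖ N' h h49 su hx hxb).V₂_mem;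
      dlOrd (dlxChart1 𝔓 H hϖ N' h h49 su hx hxb).V₂
        ((algebraMap ↥(tbFix 𝔓 H) ↥(tbLevF 𝔓 (N' * 𝔓.p) H) u ^ m)⁻¹)) :=
  dlqi_hez (dlxChart1 𝔓 H hϖ N' h h49 su hx hxb) hu m p

/-- `dlOrd (taOv …) (algebraMap u) = 0` -/
theorem dlqi_ord_inf1 {u : ↥(tbFix 𝔓 H)} (hu : (tbFixO 𝔓 H).valuation u = 1) :
    (haveI := (dlxChart1 𝔓 H hϖ N' h h49 su hx hxb).P.dvr _
          (dlxChart1 𝔓 H hϖ N' h h49 su hx hxb).V₁_mem;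
      dlOrd (dlxChart1 𝔓 H hϖ N' h h49 su hx hxb).V₁
        (algebraMap ↥(tbFix 𝔓 H) ↥(tbLevF 𝔓 (N' * 𝔓.p) H) u)) = 0 :=
  dlqi_ord_const₁ (dlxChart1 𝔓 H hϖ N' h h49 su hx hxb) hu

/-- `dlOrd (dliO0 …) (algebraMap u) = 0` -/
theorem dlqi_ord_zero1 {u : ↥(tbFix 𝔓 H)} (hu : (tbFixO 𝔓 H).valuation u = 1) :
    (haveI := (dlxChart1 𝔓 H hϖ N' h h49 su hx hxb).P.dvr _
          (dlxChart1 𝔓 H hϖ N' h h49 su hx hxb).V₂_mem;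
      dlOrd (dlxChart1 𝔓 H hϖ N' h h49 su hx hxb).V₂
        (algebraMap ↥(tbFix 𝔓 H) ↥(tbLevF 𝔓 (N' * 𝔓.p) H) u)) = 0 :=
  dlqi_ord_const₂ (dlxChart1 𝔓 H hϖ N' h h49 su hx hxb) hu

end Chart1

/-! ### extras: the two covers -/

section Cover

variable (𝔓 : FFPlace) (N' : ℕ) [NeZero N']

theorem dlqi_pi1_ne_zero : (dliBase1 𝔓).ϖ ≠ 0 := (dliBase1 𝔓).hϖ

theorem dlqi_eta_ne_zero :
    ((dliEta 𝔓 : ↥(tbFixO 𝔓 (dliH1 𝔓))) : ↥(tbFix 𝔓 (dliH1 𝔓))) ≠ 0 := by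
  intro h0
  have h1 := dli_p_eq 𝔓
  rw [h0, zero_mul] at h1
  have h2 : ((𝔓.p : ℕ) : ↥(tbFix 𝔓 (dliH1 𝔓))) ≠ 0 := by
    haveI : CharZero ↥(tbFix 𝔓 (dliH1 𝔓)) := algebraRat.charZero _
    exact Nat.cast_ne_zero.mpr 𝔓.hp.ne_zero
  exact h2 h1

variable (ζ₁ : ↥(tbFix 𝔓 (dliH1 𝔓))) (hζ₁ : IsPrimitiveRoot ζ₁ 𝔓.p)

/-- **the cyclic cover at the tame level**: `ϖ = ϖ₁ = 1 - ζ_p`, `η = dliEta`, `ζ = ζ₁` any primitive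
`p`-th root of unity of `L₁` -/
def dlqiCover1 (Z : ↥(tbLevF 𝔓 (N' * 𝔓.p) (dliH1 𝔓)))
    [Fact (Irreducible (X ^ 𝔓.p - Polynomial.C Z : (↥(tbLevF 𝔓 (N' * 𝔓.p) (dliH1 𝔓)))[X]))] :
    DlyCover 𝔓.p ↥(tbLevF 𝔓 (N' * 𝔓.p) (dliH1 𝔓)) (DlyRoot 𝔓.p Z) :=
  dlyRootCover 𝔓.p Z 𝔓.hp
    (algebraMap ↥(tbFix 𝔓 (dliH1 𝔓)) ↥(tbLevF 𝔓 (N' * 𝔓.p) (dliH1 𝔓)) (dliBase1 𝔓).ϖ)
    (algebraMap ↥(tbFix 𝔓 (dliH1 𝔓)) ↥(tbLevF 𝔓 (N' * 𝔓.p) (dliH1 𝔓))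
      ((dliEta 𝔓 : ↥(tbFixO 𝔓 (dliH1 𝔓))) : ↥(tbFix 𝔓 (dliH1 𝔓))))
    (algebraMap ↥(tbFix 𝔓 (dliH1 𝔓)) ↥(tbLevF 𝔓 (N' * 𝔓.p) (dliH1 𝔓)) ζ₁)
    ((_root_.map_ne_zero _).mpr (dlqi_pi1_ne_zero 𝔓))
    ((_root_.map_ne_zero _).mpr (dlqi_eta_ne_zero 𝔓))
    (by
      have h1 := congrArg (algebraMap ↥(tbFix 𝔓 (dliH1 𝔓)) ↥(tbLevF 𝔓 (N' * 𝔓.p) (dliH1 𝔓)))
        (dliBase1_p_eq 𝔓)
      rw [map_natCast, map_mul, map_pow] at h1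
      exact h1)
    (hζ₁.map_of_injective
      (algebraMap ↥(tbFix 𝔓 (dliH1 𝔓)) ↥(tbLevF 𝔓 (N' * 𝔓.p) (dliH1 𝔓))).injective)

variable {H : Subgroup 𝔓.I} (hle : H ≤ dliH1 𝔓)

/-- **the cyclic cover at the level `H ≤ H₁`**: the image of the cover at the tame level under
`dlqlF` -/
def dlqiCover2 (Z : ↥(tbLevF 𝔓 (N' * 𝔓.p) (dliH1 𝔓)))
    [Fact (Irreducible (X ^ 𝔓.p - Polynomial.C (dlqlF 𝔓 hle (N' * 𝔓.p) Z) :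
      (↥(tbLevF 𝔓 (N' * 𝔓.p) H))[X]))] :
    DlyCover 𝔓.p ↥(tbLevF 𝔓 (N' * 𝔓.p) H) (DlyRoot 𝔓.p (dlqlF 𝔓 hle (N' * 𝔓.p) Z)) :=
  dlyRootCover 𝔓.p (dlqlF 𝔓 hle (N' * 𝔓.p) Z) 𝔓.hp
    (dlqlF 𝔓 hle (N' * 𝔓.p) (algebraMap ↥(tbFix 𝔓 (dliH1 𝔓)) _ (dliBase1 𝔓).ϖ))
    (dlqlF 𝔓 hle (N' * 𝔓.p) (algebraMap ↥(tbFix 𝔓 (dliH1 𝔓)) _
      ((dliEta 𝔓 : ↥(tbFixO 𝔓 (dliH1 𝔓))) : ↥(tbFix 𝔓 (dliH1 𝔓)))))
    (dlqlF 𝔓 hle (N' * 𝔓.p) (algebraMap ↥(tbFix 𝔓 (dliH1 𝔓)) _ ζ₁))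
    ((_root_.map_ne_zero _).mpr ((_root_.map_ne_zero _).mpr (dlqi_pi1_ne_zero 𝔓)))
    ((_root_.map_ne_zero _).mpr ((_root_.map_ne_zero _).mpr (dlqi_eta_ne_zero 𝔓)))
    (by
      have h1 := congrArg (fun t => dlqlF 𝔓 hle (N' * 𝔓.p)
        (algebraMap ↥(tbFix 𝔓 (dliH1 𝔓)) ↥(tbLevF 𝔓 (N' * 𝔓.p) (dliH1 𝔓)) t)) (dliBase1_p_eq 𝔓)
      simp only [map_natCast, map_mul, map_pow] at h1
      exact h1)
    ((hζ₁.map_of_injective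
      (algebraMap ↥(tbFix 𝔓 (dliH1 𝔓)) ↥(tbLevF 𝔓 (N' * 𝔓.p) (dliH1 𝔓))).injective).map_of_injective
      (dlqlF 𝔓 hle (N' * 𝔓.p)).injective)

section Lemmas

variable (Z : ↥(tbLevF 𝔓 (N' * 𝔓.p) (dliH1 𝔓)))
  [Fact (Irreducible (X ^ 𝔓.p - Polynomial.C Z : (↥(tbLevF 𝔓 (N' * 𝔓.p) (dliH1 𝔓)))[X]))]
  [Fact (Irreducible (X ^ 𝔓.p - Polynomial.C (dlqlF 𝔓 hle (N' * 𝔓.p) Z) :
      (↥(tbLevF 𝔓 (N' * 𝔓.p) H))[X]))]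

@[simp] theorem dlqiCover1_Z : (dlqiCover1 𝔓 N' ζ₁ hζ₁ Z).Z = Z := rfl

@[simp] theorem dlqiCover1_y : (dlqiCover1 𝔓 N' ζ₁ hζ₁ Z).y = AdjoinRoot.root _ := rfl

/-- the hypothesis `hϖ₁` of `dlqf_family` -/
theorem dlqiCover1_ϖ : (dlqiCover1 𝔓 N' ζ₁ hζ₁ Z).ϖ =
    algebraMap ↥(tbFix 𝔓 (dliH1 𝔓)) ↥(tbLevF 𝔓 (N' * 𝔓.p) (dliH1 𝔓)) (dliBase1 𝔓).ϖ := rfl

/-- the hypothesis `hη₁` of `dlqf_family` (with `η₀ = dliEta 𝔓`) -/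
theorem dlqiCover1_η : (dlqiCover1 𝔓 N' ζ₁ hζ₁ Z).η =
    algebraMap ↥(tbFix 𝔓 (dliH1 𝔓)) ↥(tbLevF 𝔓 (N' * 𝔓.p) (dliH1 𝔓))
      ((dliEta 𝔓 : ↥(tbFixO 𝔓 (dliH1 𝔓))) : ↥(tbFix 𝔓 (dliH1 𝔓))) := rfl

theorem dlqiCover1_ζ : (dlqiCover1 𝔓 N' ζ₁ hζ₁ Z).ζ =
    algebraMap ↥(tbFix 𝔓 (dliH1 𝔓)) ↥(tbLevF 𝔓 (N' * 𝔓.p) (dliH1 𝔓)) ζ₁ := rfl

/-- the hypothesis `hη₀` of `dlqf_family` -/
theorem dlqi_hη₀ : (dliBase1 𝔓).resA (dliEta 𝔓) ≠ 0 := dli_res_eta_ne_zero 𝔓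

@[simp] theorem dlqiCover2_Z :
    (dlqiCover2 𝔓 N' ζ₁ hζ₁ hle Z).Z = dlqlF 𝔓 hle (N' * 𝔓.p) Z := rfl

@[simp] theorem dlqiCover2_y : (dlqiCover2 𝔓 N' ζ₁ hζ₁ hle Z).y = AdjoinRoot.root _ := rfl

/-- the hypothesis `hϖ₂` of `dlqf_family` (with `h.ιF = dlqlF 𝔓 hle (N' * 𝔓.p)`) -/
theorem dlqiCover_hϖ₂ : (dlqiCover2 𝔓 N' ζ₁ hζ₁ hle Z).ϖ =
    dlqlF 𝔓 hle (N' * 𝔓.p) (dlqiCover1 𝔓 N' ζ₁ hζ₁ Z).ϖ := rfl

/-- the hypothesis `hsq` of `dlqf_family` for `ιF' = dlyRootMap p (dlqlF …) Z` -/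
theorem dlqiCover_hsq (f : ↥(tbLevF 𝔓 (N' * 𝔓.p) (dliH1 𝔓))) :
    dlyRootMap 𝔓.p (dlqlF 𝔓 hle (N' * 𝔓.p)) Z
        (algebraMap ↥(tbLevF 𝔓 (N' * 𝔓.p) (dliH1 𝔓)) (DlyRoot 𝔓.p Z) f) =
      algebraMap ↥(tbLevF 𝔓 (N' * 𝔓.p) H) (DlyRoot 𝔓.p (dlqlF 𝔓 hle (N' * 𝔓.p) Z))
        (dlqlF 𝔓 hle (N' * 𝔓.p) f) :=
  dlyRootMap_algebraMap 𝔓.p (dlqlF 𝔓 hle (N' * 𝔓.p)) Z f

/-- the hypothesis `hy` of `dlqf_family` for `ιF' = dlyRootMap p (dlqlF …) Z` -/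
theorem dlqiCover_hy :
    dlyRootMap 𝔓.p (dlqlF 𝔓 hle (N' * 𝔓.p)) Z (dlqiCover1 𝔓 N' ζ₁ hζ₁ Z).y =
      (dlqiCover2 𝔓 N' ζ₁ hζ₁ hle Z).y :=
  dlyRootMap_root 𝔓.p (dlqlF 𝔓 hle (N' * 𝔓.p)) Z

/-- helper4's `τ₁` is the `τ` of `dlqiCover1` -/
theorem dlqiCover1_tau (τ₁ : DlyRoot 𝔓.p Z →+* DlyRoot 𝔓.p Z)
    (hτof : ∀ f : ↥(tbLevF 𝔓 (N' * 𝔓.p) (dliH1 𝔓)),
      τ₁ (algebraMap ↥(tbLevF 𝔓 (N' * 𝔓.p) (dliH1 𝔓)) (DlyRoot 𝔓.p Z) f) =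
        algebraMap ↥(tbLevF 𝔓 (N' * 𝔓.p) (dliH1 𝔓)) (DlyRoot 𝔓.p Z) f)
    (hτroot : τ₁ (AdjoinRoot.root _) =
      algebraMap ↥(tbLevF 𝔓 (N' * 𝔓.p) (dliH1 𝔓)) (DlyRoot 𝔓.p Z)
        (algebraMap ↥(tbFix 𝔓 (dliH1 𝔓)) ↥(tbLevF 𝔓 (N' * 𝔓.p) (dliH1 𝔓)) ζ₁) *
          AdjoinRoot.root _) (z : DlyRoot 𝔓.p Z) :
    τ₁ z = (dlqiCover1 𝔓 N' ζ₁ hζ₁ Z).τ z :=
  dlqi_tau_eq (dlqiCover1 𝔓 N' ζ₁ hζ₁ Z) τ₁ hτof hτroot z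

end Lemmas

end Cover

end Fermat.Agent.Delta
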