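/-
DELTA / SL-CORE (helper2): **transfer of slopes along an embedding of nodes**.

`ι : F₁ → F₂` a field embedding, `𝒩₁ : DlNode L₁ F₁`, `𝒩₂ : DlNode L₂ F₂` with `ι A₁ ⊆ A₂`,
`ι 𝔭_{W₁} ⊆ 𝔭_{W₂}`, `slope₂ (ι ϖ₁) = 0`, `slope₂ (ι t₁) = 1`.  Then `slope₂ (ι z) = slope₁ z`
(`dlq_slope_transfer`).  Two instances:
* (SL1) the étale transfer `F → F'` of NODE-ET (`dlq_slope_node`);
* (SL2) a base change `F_{H₁} → F_H` (the hypotheses are checked by the dictionary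
  `slope = ord_P ∘ res_W`).
-/
import Fermat.Agent.Lib.Delta.Node.Export
import Fermat.Agent.Lib.Delta.Et.Node

set_option autoImplicit false
set_option linter.unusedSectionVars false
set_option linter.style.haveILetI false

namespace Fermat.Agent.Delta

open Fermat.Agent.T4

universe uL uF uF'

section Transfer

variable {L₁ F₁ L₂ F₂ : Type*} [Field L₁] [Field F₁] [Field L₂] [Field F₂] [Algebra L₁ F₁]
  [Algebra L₂ F₂]

/-- **transfer of slopes along an embedding of nodes** -/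
theorem dlq_slope_transfer (ι : F₁ →+* F₂) (𝒩₁ : DlNode L₁ F₁) (𝒩₂ : DlNode L₂ F₂)
    (hA : ∀ f ∈ 𝒩₁.P.B, ι f ∈ 𝒩₂.P.B)
    (hW : ∀ f : F₁, 𝒩₁.W.valuation f < 1 → 𝒩₂.W.valuation (ι f) < 1)
    (hπ : 𝒩₂.slope (ι (algebraMap L₁ F₁ 𝒩₁.ϖ)) = 0) (ht : 𝒩₂.slope (ι 𝒩₁.t) = 1)
    {z : F₁} (hz : z ≠ 0) : 𝒩₂.slope (ι z) = 𝒩₁.slope z := by
  obtain ⟨u, hu, hu', hu0, hval⟩ := dln_slope_exists 𝒩₁ hz
  set a := dlOrd 𝒩₁.W z with ha
  set μ := 𝒩₁.slope z with hμ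
  have hπ0 : algebraMap L₁ F₁ 𝒩₁.ϖ ≠ 0 := dln_pi_ne_zero 𝒩₁.toDlLocal
  have ht0 : 𝒩₁.t ≠ 0 := by
    intro h0
    have h1 := 𝒩₁.tt'
    rw [h0, zero_mul] at h1
    exact pow_ne_zero _ hπ0 h1.symm
  set den := algebraMap L₁ F₁ 𝒩₁.ϖ ^ a * 𝒩₁.t ^ μ with hden
  have hden0 : den ≠ 0 := mul_ne_zero (zpow_ne_zero _ hπ0) (zpow_ne_zero _ ht0)
  set y := z / den with hy
  have hy0 : y ≠ 0 := div_ne_zero hz hden0
  have hιy0 : ι y ≠ 0 := (_root_.map_ne_zero ι).mpr hy0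
  -- `ι y ≡ ι u` modulo `𝔭_{W₂}`
  have h1 : 𝒩₂.W.valuation (ι y - ι u) < 1 := by
    rw [← map_sub]; exact hW _ hval
  have h2 : 𝒩₂.W.valuation (ι y / (algebraMap L₂ F₂ 𝒩₂.ϖ ^ (0 : ℤ) * 𝒩₂.t ^ (0 : ℤ)) - ι u) < 1 := by
    rw [zpow_zero, zpow_zero, mul_one, div_one]; exact h1
  have hιu' : (ι u)⁻¹ ∈ 𝒩₂.P.B := by rw [← map_inv₀]; exact hA _ hu'
  have h3 := dln_slope_unique 𝒩₂ hιy0 (hA _ hu) hιu' ((_root_.map_ne_zero ι).mpr hu0) h2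
  -- assemble
  have hzy : ι z = ι y * (ι (algebraMap L₁ F₁ 𝒩₁.ϖ) ^ a * ι 𝒩₁.t ^ μ) := by
    have h4 : z = y * den := by rw [hy, div_mul_cancel₀ _ hden0]
    conv_lhs => rw [h4]
    rw [map_mul, hden, map_mul, map_zpow₀, map_zpow₀]
  have hιπ0 : ι (algebraMap L₁ F₁ 𝒩₁.ϖ) ≠ 0 := (_root_.map_ne_zero ι).mpr hπ0
  have hιt0 : ι 𝒩₁.t ≠ 0 := (_root_.map_ne_zero ι).mpr ht0
  rw [hzy, 𝒩₂.slope_mul hιy0 (mul_ne_zero (zpow_ne_zero _ hιπ0) (zpow_ne_zero _ hιt0)),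
    𝒩₂.slope_mul (zpow_ne_zero _ hιπ0) (zpow_ne_zero _ hιt0), 𝒩₂.slope_zpow, 𝒩₂.slope_zpow, hπ, ht,
    ← h3.2]
  ring

end Transfer

section Node

variable {L : Type uL} {F : Type uF} {F' : Type uF'} [Field L] [Field F] [Field F']
  [Algebra L F] [Algebra F F'] [Algebra L F'] [IsScalarTower L F F']

/-- **(SL1)** the slopes of the étale transfer of a node -/
theorem dlq_slope_node (I : DltInput L F F') (hens : DltHens I.𝒩.O F') {z : F} (hz : z ≠ 0) :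
    (I.node hens).slope (algebraMap F F' z) = I.𝒩.slope z := by
  refine dlq_slope_transfer (algebraMap F F') I.𝒩 (I.node hens)
    (fun f hf => I.algebraMap_mem_node hens hf) ?_ ?_ ?_ hz
  · intro f hf
    rw [← dlt_comap_lt_one, I.node_W_comap hens]
    exact hf
  · rw [← IsScalarTower.algebraMap_apply L F F']
    refine (I.node hens).slope_const (c := I.𝒩.ϖ) fun h0 => dln_pi_ne_zero I.𝒩.toDlLocal ?_
    show algebraMap L F I.𝒩.ϖ = 0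
    rw [h0, map_zero]
  · exact (I.node hens).slope_t

end Node

end Fermat.Agent.Delta
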